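import Mathlib
import Fermat.Agent.S05.Main
import Fermat.Agent.S05.ComponentsInd

/-!
# PROGRAM MR (S44), E-SIDE, MULTIPLICATIVE REDUCTION AT `q = p` : the inputs `(M1)`, `(M2)`, `(E3-node)`

Owner: helper13.  Namespace `Fermat.Agent.MR`, prefix `mrem`.

`W : Y² = X³ + a₂ X² + a₄ X` over a valued field `(K, v)`, `v 2 = 1`, `v a₂ = 1`, `v a₄ < 1`
(`IsMultRed v W` of S05, node at `(0,0)`; the valuation is ARBITRARY, so residue characteristic
`p` is an instance).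

* `mrem_val_y` `(M2)` : `v a₄ < v x < 1` ⟹ `v y = v x`;
* `mrem_kap_eq`, `mrem_val_x` `(M1)` : if `a₄ = u d^p`, `u` a unit (i.e. `p ∣ v(Δ)`), a point `P`
  with `p • P = 0`, `p` odd, outside `E₀` (`v x_P < 1`) has `v a₄ < v x_P < 1` and
  `v x_P = v (d^(2l))` for some `l : ℤ` - the valuation of an element of the field of `d`;
* `mrem_translate` `(E3-node)` : FIRST-ORDER TRANSLATION at a point reducing to the node : for `T`
  in the kernel of reduction (`1 < v x_T`), `v (x(P + T) - x(P)) = v x_P * (v x_T / v y_T)`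
  (`= v x_P * v z_T`, `z = -x/y`);
* `mrem_sigma_sub` : the same for `T = σ P - P` : `v (σ x_P - x_P) = v x_P * v z_T`;
* `mrem_tau` : for `c₀` fixed by `σ` with `v c₀ = v x_P` : `v (σ (x_P / c₀) - x_P / c₀) = v z_T`.
-/

set_option autoImplicit false
set_option linter.unusedSectionVars false
set_option linter.unusedVariables false

namespace Fermat.Agent.MR

open WeierstrassCurve WeierstrassCurve.Affine Fermat.Agent.S05

section General

variable {K : Type*} [Field K] [DecidableEq K] {Γ₀ : Type*} [LinearOrderedCommGroupWithZero Γ₀]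
  (v : Valuation K Γ₀) {W : Affine K}

/-- `v 3 ≤ 1` from `v 2 = 1`. -/
theorem mrem_val_three (h2 : v (2 : K) = 1) : v (3 : K) ≤ 1 := by
  have h : (3 : K) = 2 + 1 := by norm_num
  rw [h]
  refine le_trans (v.map_add _ _) ?_
  rw [h2, map_one, max_self]

/-- `(M2)` : between the two components, `v y = v x`. -/
theorem mrem_val_y (h : IsMultRed v W) {x y : K} (hxy : W.Nonsingular x y)
    (hβ : v W.a₄ < v x) (h1 : v x < 1) : v y = v x := by
  have e := h.leg.sq_yc hxy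
  have hx0 : v x ≠ 0 := fun h0 => by
    rw [h0] at hβ
    exact not_lt_zero' hβ
  have e' : y ^ 2 = x * (W.a₂ * x + (x ^ 2 + W.a₄)) := by rw [e]; ring
  have h3 : v (x ^ 2 + W.a₄) < v (W.a₂ * x) := by
    rw [map_mul, h.a₂, one_mul]
    refine v.map_add_lt ?_ hβ
    rw [map_pow, pow_two]
    calc v x * v x < v x * 1 := mul_lt_mul_of_pos_left h1 (zero_lt_iff.mpr hx0)
      _ = v x := mul_one _
  have h4 : v (W.a₂ * x + (x ^ 2 + W.a₄)) = v x := by
    rw [v.map_add_eq_of_lt_left h3, map_mul, h.a₂, one_mul]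
  have h5 : v y ^ 2 = v x ^ 2 := by
    rw [← map_pow, e', map_mul, h4, pow_two]
  exact comp_sq_inj h5

/-- `n`-th roots are unique in `Γ₀`. -/
theorem mrem_pow_inj {a b : Γ₀} (ha : a ≠ 0) (hb : b ≠ 0) {n : ℕ} (hn : n ≠ 0)
    (h : a ^ n = b ^ n) : a = b := by
  rcases lt_trichotomy a b with hlt | heq | hgt
  · exact absurd h (ne_of_lt (pow_lt_pow_left₀ hlt (zero_le') hn))
  · exact heq
  · exact absurd h.symm (ne_of_lt (pow_lt_pow_left₀ hgt (zero_le') hn))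

/-- `(M1)`, component form : if `a₄ = u d^p` with `u` a unit, the component function of a
`p`-torsion point is `v (d^(2l))`. -/
theorem mrem_kap_eq (h : IsMultRed v W) {p : ℕ} (hp : p ≠ 0) (u d : K) (hu : v u = 1)
    (hd : W.a₄ = u * d ^ p) {P : W.Point} (hP : p • P = 0) :
    ∃ l : ℤ, kap v P = v (d ^ (2 * l)) := by
  obtain ⟨l, hl⟩ := kap_pow_of_nsmul_eq_zero v h hP
  refine ⟨l, ?_⟩
  have hd0 : d ≠ 0 := by
    rintro rfl
    apply h.a₄_ne
    rw [hd, zero_pow hp, mul_zero]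
  have hvd : v d ≠ 0 := (v.ne_zero_iff).mpr hd0
  have h1 : v W.a₄ = v d ^ p := by rw [hd, map_mul, hu, one_mul, map_pow]
  have h2 : kap v P ^ p = (v (d ^ (2 * l))) ^ p := by
    rw [hl, h1, map_zpow₀, ← zpow_natCast, ← zpow_natCast, ← zpow_mul, ← zpow_mul]
    congr 1
    ring
  refine mrem_pow_inj (h.kap_ne_zero P) ?_ hp h2
  rw [map_zpow₀]
  exact zpow_ne_zero _ hvd

/-- `(M1)` : a point of odd order `p` outside `E₀` lies strictly between the two components and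
`v x_P` is the valuation of a power of `d`. -/
theorem mrem_val_x (h : IsMultRed v W) {p : ℕ} (hp : Odd p) (u d : K) (hu : v u = 1)
    (hd : W.a₄ = u * d ^ p) {x y : K} (hxy : W.Nonsingular x y)
    (hP : p • Point.some x y hxy = 0) (hx : v x < 1) :
    v W.a₄ < v x ∧ ∃ l : ℤ, v x = v (d ^ (2 * l)) := by
  have hp0 : p ≠ 0 := by
    rintro rfl
    simp at hp
  obtain ⟨l, hl⟩ := mrem_kap_eq v h hp0 u d hu hd hP
  have hkap : kap v (Point.some x y hxy) = max (v W.a₄) (min (v x) 1) := kap_some v hxy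
  have hmin : min (v x) 1 = v x := min_eq_left hx.le
  rw [hmin] at hkap
  have hd0 : d ≠ 0 := by
    rintro rfl
    apply h.a₄_ne
    rw [hd, zero_pow hp0, mul_zero]
  have hvd : v d ≠ 0 := (v.ne_zero_iff).mpr hd0
  have hβ : v W.a₄ = v d ^ p := by rw [hd, map_mul, hu, one_mul, map_pow]
  have hβ1 : v d < 1 := by
    by_contra hge
    rw [not_lt] at hge
    have := h.a₄_lt
    rw [hβ] at this
    exact absurd (one_le_pow₀ hge) (not_le.mpr this)
  -- the point is not on the component of `(0,0)`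
  have hlt : v W.a₄ < v x := by
    by_contra hge
    rw [not_lt] at hge
    rw [hkap, max_eq_left hge, hβ, map_zpow₀, ← zpow_natCast] at hl
    -- `v d ^ p = v d ^ (2 l)` forces `p = 2 l`
    have hinj : (p : ℤ) = 2 * l := by
      by_contra hne
      rcases lt_or_gt_of_ne hne with hlt' | hgt'
      · have := zpow_lt_zpow_right_of_lt_one₀ (zero_lt_iff.mpr hvd) hβ1 hlt'
        exact absurd hl.symm (ne_of_lt this)
      · have := zpow_lt_zpow_right_of_lt_one₀ (zero_lt_iff.mpr hvd) hβ1 hgt'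
        exact absurd hl (ne_of_lt this)
    obtain ⟨k, hk⟩ := hp
    omega
  refine ⟨hlt, l, ?_⟩
  rw [← hl, hkap, max_eq_right hlt.le]

/-- **`(E3-node)` FIRST-ORDER TRANSLATION AT A POINT REDUCING TO THE NODE.** -/
theorem mrem_translate (h : IsMultRed v W) {x₁ y₁ x₂ y₂ : K} (h₁ : W.Nonsingular x₁ y₁)
    (h₂ : W.Nonsingular x₂ y₂) (hβ : v W.a₄ < v x₁) (h1 : v x₁ < 1) (hT : 1 < v x₂) :
    v (xc (Point.some x₁ y₁ h₁ + Point.some x₂ y₂ h₂) - x₁) = v x₁ * (v x₂ / v y₂) := by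
  have hW := h.leg
  have e₁ := hW.sq_yc h₁
  have e₂ := hW.sq_yc h₂
  have hx₁0 : v x₁ ≠ 0 := fun h0 => by
    rw [h0] at hβ
    exact not_lt_zero' hβ
  have hx₁pos : 0 < v x₁ := zero_lt_iff.mpr hx₁0
  have hx₂pos : 0 < v x₂ := lt_trans zero_lt_one hT
  have hx₂0 : v x₂ ≠ 0 := hx₂pos.ne'
  have hx : x₁ ≠ x₂ := fun heq => by
    rw [heq] at h1
    exact absurd (lt_trans h1 hT) (lt_irrefl _)
  have hy₁ : v y₁ = v x₁ := mrem_val_y v h h₁ hβ h1
  -- `v y₂ ^ 2 = v x₂ ^ 3`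
  have hy₂sq : v y₂ ^ 2 = v x₂ ^ 3 := by
    have e' : y₂ ^ 2 = x₂ ^ 3 + (W.a₂ * x₂ ^ 2 + W.a₄ * x₂) := by rw [e₂]; ring
    have hlt : v (W.a₂ * x₂ ^ 2 + W.a₄ * x₂) < v (x₂ ^ 3) := by
      refine v.map_add_lt ?_ ?_
      · rw [map_mul, h.a₂, one_mul, map_pow, map_pow, pow_succ (v x₂) 2]
        calc v x₂ ^ 2 = v x₂ ^ 2 * 1 := (mul_one _).symm
          _ < v x₂ ^ 2 * v x₂ := mul_lt_mul_of_pos_left hT (pow_pos hx₂pos 2)
      · rw [map_mul, map_pow]
        calc v W.a₄ * v x₂ < 1 * v x₂ := mul_lt_mul_of_pos_right h.a₄_lt hx₂pos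
          _ = v x₂ := one_mul _
          _ = v x₂ ^ 1 := (pow_one _).symm
          _ < v x₂ ^ 3 := pow_lt_pow_right₀ hT (by norm_num)
    rw [← map_pow, e', v.map_add_eq_of_lt_left hlt, map_pow]
  have hy₂pos : 0 < v y₂ := by
    rcases eq_or_ne (v y₂) 0 with h0 | h0
    · rw [h0, zero_pow two_ne_zero] at hy₂sq
      exact absurd hy₂sq.symm (pow_ne_zero 3 hx₂0)
    · exact zero_lt_iff.mpr h0
  -- `v x₂ < v y₂`
  have hxy₂ : v x₂ < v y₂ := by
    by_contra hge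
    rw [not_lt] at hge
    have h3 : v y₂ ^ 2 ≤ v x₂ ^ 2 := pow_le_pow_left₀ zero_le' hge 2
    rw [hy₂sq, pow_succ (v x₂) 2] at h3
    have h4 : v x₂ ^ 2 * 1 < v x₂ ^ 2 * v x₂ := mul_lt_mul_of_pos_left hT (pow_pos hx₂pos 2)
    rw [mul_one] at h4
    exact absurd h3 (not_le.mpr h4)
  -- the exact identity
  have hne : x₁ - x₂ ≠ 0 := sub_ne_zero.2 hx
  have hid : (xc (Point.some x₁ y₁ h₁ + Point.some x₂ y₂ h₂) - x₁) * (x₁ - x₂) ^ 2 =
      -(2 * y₁ * y₂) + (3 * x₁ ^ 2 * x₂ + W.a₄ * x₁ + W.a₄ * x₂ + 2 * W.a₂ * x₁ * x₂ - x₁ ^ 3) := by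
    rw [hW.xc_add_of_ne h₁ h₂ hx]
    field_simp
    linear_combination e₁ + e₂
  -- the dominant term
  have hdom : v (2 * y₁ * y₂) = v x₁ * v y₂ := by
    rw [map_mul, map_mul, h.two, one_mul, hy₁]
  have hrest : v (3 * x₁ ^ 2 * x₂ + W.a₄ * x₁ + W.a₄ * x₂ + 2 * W.a₂ * x₁ * x₂ - x₁ ^ 3) <
      v x₁ * v y₂ := by
    have t1 : v (3 * x₁ ^ 2 * x₂) < v x₁ * v y₂ := by
      rw [map_mul, map_mul, map_pow, pow_two]
      calc v 3 * (v x₁ * v x₁) * v x₂ ≤ 1 * (v x₁ * v x₁) * v x₂ := by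
            gcongr
            exact mrem_val_three v h.two
        _ = v x₁ * (v x₁ * v x₂) := by rw [one_mul, mul_assoc]
        _ < v x₁ * v y₂ := by
            refine mul_lt_mul_of_pos_left ?_ hx₁pos
            calc v x₁ * v x₂ < 1 * v x₂ := mul_lt_mul_of_pos_right h1 hx₂pos
              _ = v x₂ := one_mul _
              _ < v y₂ := hxy₂
    have t2 : v (W.a₄ * x₁) < v x₁ * v y₂ := by
      rw [map_mul, mul_comm]
      refine mul_lt_mul_of_pos_left ?_ hx₁pos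
      exact lt_trans h.a₄_lt (lt_trans hT hxy₂)
    have t3 : v (W.a₄ * x₂) < v x₁ * v y₂ := by
      rw [map_mul]
      calc v W.a₄ * v x₂ < v x₁ * v x₂ := mul_lt_mul_of_pos_right hβ hx₂pos
        _ < v x₁ * v y₂ := mul_lt_mul_of_pos_left hxy₂ hx₁pos
    have t4 : v (2 * W.a₂ * x₁ * x₂) < v x₁ * v y₂ := by
      rw [map_mul, map_mul, map_mul, h.two, h.a₂, one_mul, one_mul]
      exact mul_lt_mul_of_pos_left hxy₂ hx₁pos
    have t5 : v (x₁ ^ 3) < v x₁ * v y₂ := by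
      rw [map_pow, pow_succ' (v x₁) 2]
      refine mul_lt_mul_of_pos_left ?_ hx₁pos
      calc v x₁ ^ 2 ≤ 1 := pow_le_one₀ zero_le' h1.le
        _ < v y₂ := lt_trans hT hxy₂
    exact v.map_sub_lt (v.map_add_lt (v.map_add_lt (v.map_add_lt t1 t2) t3) t4) t5
  have hN : v ((xc (Point.some x₁ y₁ h₁ + Point.some x₂ y₂ h₂) - x₁) * (x₁ - x₂) ^ 2) =
      v x₁ * v y₂ := by
    rw [hid, v.map_add_eq_of_lt_left (by rw [Valuation.map_neg, hdom]; exact hrest),
      Valuation.map_neg, hdom]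
  have hden : v (x₁ - x₂) = v x₂ := by
    exact Valuation.map_sub_eq_of_lt_right v (lt_trans h1 hT)
  rw [map_mul, map_pow, hden] at hN
  -- conclude
  have hx₂sq : v x₂ ^ 2 ≠ 0 := pow_ne_zero 2 hx₂0
  have h5 : v (xc (Point.some x₁ y₁ h₁ + Point.some x₂ y₂ h₂) - x₁) =
      v x₁ * v y₂ / v x₂ ^ 2 := by
    rw [eq_div_iff hx₂sq, hN]
  rw [h5]
  have hy₂0 : v y₂ ≠ 0 := hy₂pos.ne'
  rw [mul_div_assoc]
  congr 1
  rw [div_eq_div_iff hx₂sq hy₂0, ← pow_two, hy₂sq, pow_succ' (v x₂) 2]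

end General

section Galois

variable {F K : Type*} [Field F] [Field K] [Algebra F K] [DecidableEq K] {Γ₀ : Type*}
  [LinearOrderedCommGroupWithZero Γ₀] (v : Valuation K Γ₀)

/-- `(E3-node)` for `T = σ P - P` : `v (σ x_P - x_P) = v x_P * v z_T`. -/
theorem mrem_sigma_sub (W' : Affine F) (hM : IsMultRed v (W'⁄K)) (σ : K ≃ₐ[F] K) {x y : K}
    (h : (W'⁄K).Nonsingular x y) (hβ : v (W'⁄K).a₄ < v x) (h1 : v x < 1) {x₂ y₂ : K}
    (h₂ : (W'⁄K).Nonsingular x₂ y₂)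
    (hT : Point.map (W' := W') σ.toAlgHom (Point.some x y h) - Point.some x y h =
      Point.some x₂ y₂ h₂) (hker : 1 < v x₂) :
    v (σ x - x) = v x * (v x₂ / v y₂) := by
  obtain ⟨h', e⟩ := main_map_some W' σ h
  have hsum : Point.some (σ x) (σ y) h' = Point.some x y h + Point.some x₂ y₂ h₂ := by
    rw [← e, ← hT]
    abel
  have hxc : σ x = xc (Point.some x y h + Point.some x₂ y₂ h₂) := by
    rw [← hsum, xc_some]
  rw [hxc]
  exact mrem_translate v hM h h₂ hβ h1 hker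

/-- the function `τ₀ = x_P / c₀` of `(E4)` : for `c₀` fixed by `σ`, `v (σ τ₀ - τ₀) = v z_T`. -/
theorem mrem_tau (W' : Affine F) (hM : IsMultRed v (W'⁄K)) (σ : K ≃ₐ[F] K) {x y : K}
    (h : (W'⁄K).Nonsingular x y) (hβ : v (W'⁄K).a₄ < v x) (h1 : v x < 1) {x₂ y₂ : K}
    (h₂ : (W'⁄K).Nonsingular x₂ y₂)
    (hT : Point.map (W' := W') σ.toAlgHom (Point.some x y h) - Point.some x y h =
      Point.some x₂ y₂ h₂) (hker : 1 < v x₂) (c₀ : K) (hc₀ : σ c₀ = c₀) (hvc₀ : v c₀ = v x) :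
    v (σ (x / c₀) - x / c₀) = v x₂ / v y₂ := by
  have hx0 : v x ≠ 0 := fun h0 => by
    rw [h0] at hβ
    exact not_lt_zero' hβ
  have hc0 : c₀ ≠ 0 := by
    rintro rfl
    rw [map_zero] at hvc₀
    exact hx0 hvc₀.symm
  have h3 : σ (x / c₀) - x / c₀ = (σ x - x) / c₀ := by
    rw [map_div₀, hc₀]
    field_simp
  rw [h3, map_div₀, mrem_sigma_sub v W' hM σ h hβ h1 h₂ hT hker, hvc₀, mul_div_assoc,
    mul_comm, div_mul_cancel₀ _ hx0]

/-- **THE MULTIPLICATIVE E-SIDE PACKAGE** (`(M1)` + `(M2)` + `(E3-node)`) : `W'` over `F` with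
`a₄ = u d^p`, `u` a unit (`p ∣ v(Δ)`), `P` of odd order `p` outside `E₀`, `σ` with `T = σ P - P`
a NONZERO point of the kernel of reduction.  Then there is `c₀ ∈ Fˣ` (a power of `d`) with
`v c₀ = v x_P`, and `τ₀ = x_P / c₀` (a unit) satisfies `v (σ τ₀ - τ₀) = v z_T`. -/
theorem mrem_package (W' : Affine F) (hM : IsMultRed v (W'⁄K)) {p : ℕ} (hp : Odd p)
    (u d : F) (hu : v (algebraMap F K u) = 1) (hd : W'.a₄ = u * d ^ p)
    (σ : K ≃ₐ[F] K) {x y : K} (h : (W'⁄K).Nonsingular x y)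
    (hP : p • Point.some x y h = 0) (hx : v x < 1) {x₂ y₂ : K}
    (h₂ : (W'⁄K).Nonsingular x₂ y₂)
    (hT : Point.map (W' := W') σ.toAlgHom (Point.some x y h) - Point.some x y h =
      Point.some x₂ y₂ h₂) (hker : 1 < v x₂) :
    ∃ c₀ : F, c₀ ≠ 0 ∧ v (algebraMap F K c₀) = v x ∧ v y = v x ∧
      v (x / algebraMap F K c₀) = 1 ∧
      v (σ (x / algebraMap F K c₀) - x / algebraMap F K c₀) = v x₂ / v y₂ := by
  have hd' : (W'⁄K).a₄ = algebraMap F K u * algebraMap F K d ^ p := by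
    show algebraMap F K W'.a₄ = _
    rw [hd, map_mul, map_pow]
  obtain ⟨hβ, l, hl⟩ := mrem_val_x v hM hp (algebraMap F K u) (algebraMap F K d) hu hd' h hP hx
  have hx0 : v x ≠ 0 := fun h0 => by
    rw [h0] at hβ
    exact not_lt_zero' hβ
  have hcast : algebraMap F K (d ^ (2 * l)) = algebraMap F K d ^ (2 * l) := map_zpow₀ _ _ _
  have hvc : v (algebraMap F K (d ^ (2 * l))) = v x := by rw [hcast, ← hl]
  have hc0 : d ^ (2 * l) ≠ 0 := by
    intro h0
    rw [h0, map_zero, map_zero] at hvc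
    exact hx0 hvc.symm
  refine ⟨d ^ (2 * l), hc0, hvc, mrem_val_y v hM h hβ hx, ?_, ?_⟩
  · rw [map_div₀, hvc, div_self hx0]
  · exact mrem_tau v W' hM σ h hβ hx h₂ hT hker _ (σ.commutes _) hvc

end Galois

end Fermat.Agent.MR
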