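import Mathlib
import Fermat.Agent.S05.LegendreUnram
import Fermat.Agent.MR.ESide.Mult

/-!
# PROGRAM MR (S44), E-SIDE : THE LEGENDRE MODEL OF THE FREY CURVE AT `p ∣ a b c`

Owner: helper13.  Namespace `Fermat.Agent.MR`, prefix `mremf`.

* `mremf_isMultRed` : `Y² = X (X - A) (X + B)` (`A B : ℤ`, `q ∣ A B`, `q ∤ B - A`, `q ≠ 2`) is
  `IsMultRed` for the valuation of any valuation subring of `ℚ̄` over `q` (`q = p` allowed);
* `mremf_model` : for a Frey package with `p ∣ a b c` there are `A B : ℤ`, a change of variables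
  `C` over `ℚ` with `legendreCurve A B = C • P.freyCurve`, and `u d : ℤ`, `p ∤ u`, `d ≠ 0`,
  `-(A B) = u d^p` (`p ∣ v_p(Δ)`), node at the origin (`p ∣ A B`, `p ∤ B - A`);
* `mremf_package` : `mrem_package` for this model and the valuation of `A ⊂ ℚ̄` over `p`.
-/

set_option autoImplicit false
set_option linter.unusedSectionVars false
set_option linter.unusedVariables false

namespace Fermat.Agent.MR

open WeierstrassCurve WeierstrassCurve.Affine Fermat.Agent.S05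

local notation "Qb" => AlgebraicClosure ℚ

lemma mremf_not_dvd_both {a b : ℤ} (h : gcd a b = 1) {q : ℕ} (hq : q.Prime) (ha : (q : ℤ) ∣ a)
    (hb : (q : ℤ) ∣ b) : False := by
  have h1 : (q : ℤ) ∣ gcd a b := dvd_gcd ha hb
  rw [h] at h1
  have : q ∣ 1 := by exact_mod_cast h1
  exact hq.one_lt.ne' (Nat.dvd_one.1 this)

/-- the Legendre model with the node at the origin is `IsMultRed` at every place over `q`. -/
theorem mremf_isMultRed (A B : ℤ) {q : ℕ} (hq : q.Prime) (hq2 : q ≠ 2)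
    (ha₂ : ¬ (q : ℤ) ∣ B - A) (ha₄ : (q : ℤ) ∣ A * B) (hAB : A * B ≠ 0)
    (Av : ValuationSubring Qb) (hAv : Av.LiesOverPrime q) :
    IsMultRed Av.valuation (((legendreCurve A B : WeierstrassCurve ℚ)⁄Qb) : Affine Qb) := by
  have hW : IsLeg (((legendreCurve A B : WeierstrassCurve ℚ)⁄Qb)) :=
    (isLeg_legendreCurve _ _).map (algebraMap ℚ Qb)
  have e₂ : (((legendreCurve A B : WeierstrassCurve ℚ)⁄Qb)).a₂ = ((B - A : ℤ) : Qb) := by
    show algebraMap ℚ Qb (legendreCurve A B).a₂ = _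
    simp [legendreCurve]
  have e₄ : (((legendreCurve A B : WeierstrassCurve ℚ)⁄Qb)).a₄ = ((-(A * B) : ℤ) : Qb) := by
    show algebraMap ℚ Qb (legendreCurve A B).a₄ = _
    simp [legendreCurve]
  refine ⟨hW, legunram_val_two hq hq2 Av hAv, ?_, ?_, ?_⟩
  · rw [e₂, valuation_intCast_eq_one_iff Av hq hAv]
    exact ha₂
  · rw [e₄]
    refine lt_of_le_of_ne (valuation_intCast_le_one Av _) ?_
    rw [Ne, valuation_intCast_eq_one_iff Av hq hAv, not_not]
    exact (dvd_neg).2 ha₄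
  · rw [e₄]
    have : (-(A * B) : ℤ) ≠ 0 := neg_ne_zero.mpr hAB
    exact_mod_cast this

/-- **THE LEGENDRE MODEL OF THE FREY CURVE AT `p ∣ a b c`**, node at the origin,
`a₄ = -(A B) = u d^p`, WITH THE EXPLICIT SHAPE OF THE CHANGE OF VARIABLES : `u = 1/2`, `r = m/4`,
`s = -1/2`, `t = -m/8` with `m : ℤ` (all units / integral at odd places). -/
theorem mremf_model_int (P : FreyPackage) (hp : (P.p : ℤ) ∣ P.a * P.b * P.c) :
    ∃ (A B : ℤ) (C : WeierstrassCurve.VariableChange ℚ) (u d : ℤ),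
      legendreCurve (A : ℚ) (B : ℚ) = C • P.freyCurve ∧
      ¬ (P.p : ℤ) ∣ B - A ∧ (P.p : ℤ) ∣ A * B ∧ A * B ≠ 0 ∧
      ¬ (P.p : ℤ) ∣ u ∧ -(A * B) = u * d ^ P.p ∧ d ≠ 0 ∧
      (C.u : ℚ) = 1 / 2 ∧ ∃ m : ℤ, C.r = (m : ℚ) / 4 ∧ C.s = -1 / 2 ∧ C.t = -((m : ℚ) / 8) := by
  have hq : P.p.Prime := P.pp
  have hqZ : Prime (P.p : ℤ) := Nat.prime_iff_prime_int.1 hq
  have hFLT : P.a ^ P.p + P.b ^ P.p = P.c ^ P.p := P.hFLT
  have hp0 : P.p ≠ 0 := hq.ne_zero
  have hone : ¬ (P.p : ℤ) ∣ 1 := by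
    intro hdvd
    have : P.p ∣ 1 := by exact_mod_cast hdvd
    exact hq.one_lt.ne' (Nat.dvd_one.1 this)
  by_cases hab : (P.p : ℤ) ∣ P.a * P.b
  · refine ⟨P.a ^ P.p, P.b ^ P.p, freyChange, -1, P.a * P.b, ?_, ?_, ?_, ?_, ?_, ?_, ?_, ?_,
      0, ?_, ?_, ?_⟩
    · have h := legendreCurve_eq_smul P
      have hA : ((P.a ^ P.p : ℤ) : ℚ) = (P.a : ℚ) ^ P.p := by push_cast; rfl
      have hB : ((P.b ^ P.p : ℤ) : ℚ) = (P.b : ℚ) ^ P.p := by push_cast; rfl
      rw [hA, hB]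
      exact h
    · intro hdvd
      rcases hqZ.dvd_or_dvd hab with ha | hb
      · have hb : (P.p : ℤ) ∣ P.b ^ P.p := by
          have := dvd_add hdvd (dvd_pow ha hp0)
          simpa using this
        exact mremf_not_dvd_both P.hgcdab hq ha (hqZ.dvd_of_dvd_pow hb)
      · have ha : (P.p : ℤ) ∣ P.a ^ P.p := by
          have := dvd_sub (dvd_pow hb hp0) hdvd
          simpa using this
        exact mremf_not_dvd_both P.hgcdab hq (hqZ.dvd_of_dvd_pow ha) hb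
    · rw [← mul_pow]
      exact dvd_pow hab hp0
    · exact mul_ne_zero (pow_ne_zero _ P.ha0) (pow_ne_zero _ P.hb0)
    · intro hdvd
      exact hone ((dvd_neg).1 hdvd)
    · rw [mul_pow]; ring
    · exact mul_ne_zero P.ha0 P.hb0
    · simp [freyChange]
    · simp [freyChange]
    · simp [freyChange]
    · simp [freyChange]
  · have hc : (P.p : ℤ) ∣ P.c := by
      rcases hqZ.dvd_or_dvd hp with h | h
      · exact absurd h hab
      · exact h
    have hna : ¬ (P.p : ℤ) ∣ P.a := fun ha => hab (dvd_mul_of_dvd_left ha _)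
    refine ⟨-(P.a ^ P.p), P.c ^ P.p, legendreTranslate ((P.a : ℚ) ^ P.p) * freyChange, 1,
      P.a * P.c, ?_, ?_, ?_, ?_, ?_, ?_, ?_, ?_, P.a ^ P.p, ?_, ?_, ?_⟩
    · have h1 := legendreCurve_eq_smul P
      have h2 := legendreCurve_translate ((P.a : ℚ) ^ P.p) ((P.b : ℚ) ^ P.p)
      have hcq : ((P.c : ℚ) ^ P.p) = (P.a : ℚ) ^ P.p + (P.b : ℚ) ^ P.p := by
        exact_mod_cast hFLT.symm
      have hA : ((-(P.a ^ P.p) : ℤ) : ℚ) = -(P.a : ℚ) ^ P.p := by push_cast; rfl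
      have hC : ((P.c ^ P.p : ℤ) : ℚ) = (P.c : ℚ) ^ P.p := by push_cast; rfl
      rw [hA, hC, hcq, h2, h1, mul_smul]
    · intro hdvd
      have ha : (P.p : ℤ) ∣ P.a ^ P.p := by
        have := dvd_sub hdvd (dvd_pow hc hp0)
        simpa using this
      exact hna (hqZ.dvd_of_dvd_pow ha)
    · exact dvd_mul_of_dvd_right (dvd_pow hc hp0) _
    · exact mul_ne_zero (neg_ne_zero.mpr (pow_ne_zero _ P.ha0)) (pow_ne_zero _ P.hc0)
    · exact hone
    · rw [mul_pow]; ring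
    · exact mul_ne_zero P.ha0 P.hc0
    · simp [VariableChange.mul_def, legendreTranslate, freyChange]
    · simp only [VariableChange.mul_def, legendreTranslate, freyChange, Units.val_mk0]
      push_cast
      ring
    · simp only [VariableChange.mul_def, legendreTranslate, freyChange, Units.val_mk0]
      ring
    · simp only [VariableChange.mul_def, legendreTranslate, freyChange, Units.val_mk0]
      push_cast
      ring

/-- **THE LEGENDRE MODEL OF THE FREY CURVE AT `p ∣ a b c`**, node at the origin,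
`a₄ = -(A B) = u d^p`. -/
theorem mremf_model (P : FreyPackage) (hp : (P.p : ℤ) ∣ P.a * P.b * P.c) :
    ∃ (A B : ℤ) (C : WeierstrassCurve.VariableChange ℚ) (u d : ℤ),
      legendreCurve (A : ℚ) (B : ℚ) = C • P.freyCurve ∧
      ¬ (P.p : ℤ) ∣ B - A ∧ (P.p : ℤ) ∣ A * B ∧ A * B ≠ 0 ∧
      ¬ (P.p : ℤ) ∣ u ∧ -(A * B) = u * d ^ P.p ∧ d ≠ 0 := by
  obtain ⟨A, B, C, u, d, h1, h2, h3, h4, h5, h6, h7, -⟩ := mremf_model_int P hp
  exact ⟨A, B, C, u, d, h1, h2, h3, h4, h5, h6, h7⟩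

/-- **`mrem_package` FOR THE LEGENDRE MODEL AT A PLACE OVER `p`** : `P = (x, y)` of order `p`
outside `E₀`, `T = σ P - P = (x₂, y₂)` a nonzero point of the kernel of reduction.  Then there is
`c₀ ∈ ℚˣ` with `v c₀ = v x`, `v y = v x`, `x / c₀` is a unit and
`v (σ (x / c₀) - x / c₀) = v z_T`. -/
theorem mremf_package (A B : ℤ) {p : ℕ} (hp : p.Prime) (hp2 : p ≠ 2)
    (ha₂ : ¬ (p : ℤ) ∣ B - A) (ha₄ : (p : ℤ) ∣ A * B) (hAB : A * B ≠ 0) (u d : ℤ)
    (hu : ¬ (p : ℤ) ∣ u) (hd : -(A * B) = u * d ^ p)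
    (Av : ValuationSubring Qb) (hAv : Av.LiesOverPrime p) (σ : Qb ≃ₐ[ℚ] Qb) {x y : Qb}
    (h : (((legendreCurve A B : WeierstrassCurve ℚ)⁄Qb) : Affine Qb).Nonsingular x y)
    (hP : p • Point.some x y h = 0) (hx : Av.valuation x < 1) {x₂ y₂ : Qb}
    (h₂ : (((legendreCurve A B : WeierstrassCurve ℚ)⁄Qb) : Affine Qb).Nonsingular x₂ y₂)
    (hT : Point.map (W' := (legendreCurve A B : Affine ℚ)) σ.toAlgHom (Point.some x y h) -
      Point.some x y h = Point.some x₂ y₂ h₂) (hker : 1 < Av.valuation x₂) :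
    ∃ c₀ : ℚ, c₀ ≠ 0 ∧ Av.valuation (algebraMap ℚ Qb c₀) = Av.valuation x ∧
      Av.valuation y = Av.valuation x ∧ Av.valuation (x / algebraMap ℚ Qb c₀) = 1 ∧
      Av.valuation (σ (x / algebraMap ℚ Qb c₀) - x / algebraMap ℚ Qb c₀) =
        Av.valuation x₂ / Av.valuation y₂ := by
  have hM := mremf_isMultRed A B hp hp2 ha₂ ha₄ hAB Av hAv
  refine mrem_package Av.valuation (legendreCurve A B : Affine ℚ) hM (hp.odd_of_ne_two hp2)
    (u : ℚ) (d : ℚ) ?_ ?_ σ h hP hx h₂ hT hker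
  · have : algebraMap ℚ Qb (u : ℚ) = ((u : ℤ) : Qb) := by simp
    rw [this, valuation_intCast_eq_one_iff Av hp hAv]
    exact hu
  · show -((A : ℚ) * (B : ℚ)) = (u : ℚ) * (d : ℚ) ^ p
    exact_mod_cast hd

end Fermat.Agent.MR
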