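import Mathlib
import Fermat.Prelude.Def_FLTPrelim_GaloisRep
import Fermat.Agent.S05.KerRed
import Fermat.Agent.S05.InertiaDefs
import Fermat.Agent.MR.ESide.FreyInst

/-!
# PROGRAM MR (S44), E-SIDE, leaf (e2) IN THE POINT LANGUAGE of `MR/ESide/ShapeSpec.lean`

Owner: helper13.  Namespace `Fermat.Agent.MR`, prefix `mremp`.

`W' = legendreCurve A B` over `ℚ`, `E = W'⁄Qb`, `Av` a valuation subring of `Qb` over the odd prime
`p`, `p ∣ A B`, `p ∤ B - A`, `-(A B) = u d^p`, `p ∤ u`.  Points are `E.Point`, coordinates are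
S05's `xc`, `yc`, `zCoord`, the kernel of reduction is S05's `InKerRed`, the Galois action is
Prelude's `σ • P`.

* `mremp_node_val`  : `P ∈ E[p]`, `P ≠ 0`, `v (x P) < 1` ⟹ `∃ c₀ ∈ ℚˣ`, `v c₀ = v (x P)`,
  `v (y P) = v (x P)`, `v (a₄) < v (x P)`;
* `mremp_translate` : moreover for `T ≠ 0` in the kernel of reduction :
  `v (x (P + T) - x P) = v (z T) * v (x P)`;
* `mremp_tau`       : for `σ` with `σ • P - P ≠ 0` in the kernel of reduction : `τ₀ = x P / c₀` is a
  unit and `v (σ τ₀ - τ₀) = v (z (σ • P - P))`.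
-/

set_option autoImplicit false
set_option linter.unusedSectionVars false
set_option linter.unusedVariables false

namespace Fermat.Agent.MR

open WeierstrassCurve WeierstrassCurve.Affine Fermat.Agent.S05

local notation "Qb" => AlgebraicClosure ℚ

/-- `v (z T) = v (x T) / v (y T)` for an affine point. -/
theorem mremp_val_zCoord {L : Type*} [Field L] {Γ₀ : Type*} [LinearOrderedCommGroupWithZero Γ₀]
    (v : Valuation L Γ₀) (W : Affine L) {x y : L} (h : W.Nonsingular x y) :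
    v (zCoord W (Point.some x y h)) = v x / v y := by
  rw [zCoord_some, map_div₀, Valuation.map_neg]

section

variable (A B : ℤ) {p : ℕ} (hp : p.Prime) (hp2 : p ≠ 2)
  (ha₂ : ¬ (p : ℤ) ∣ B - A) (ha₄ : (p : ℤ) ∣ A * B) (hAB : A * B ≠ 0) (u d : ℤ)
  (hu : ¬ (p : ℤ) ∣ u) (hd : -(A * B) = u * d ^ p)
  (Av : ValuationSubring Qb) (hAv : Av.LiesOverPrime p)

include hp hp2 ha₂ ha₄ hAB hu hd hAv

/-- `(M1)` + `(M2)` in the point language. -/
theorem mremp_node_val
    (Pt : (((legendreCurve A B : WeierstrassCurve ℚ)⁄Qb) : Affine Qb).Point)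
    (hP : p • Pt = 0) (hP0 : Pt ≠ 0) (hx : Av.valuation (xc Pt) < 1) :
    ∃ c₀ : ℚ, c₀ ≠ 0 ∧ Av.valuation (algebraMap ℚ Qb c₀) = Av.valuation (xc Pt) ∧
      Av.valuation (yc Pt) = Av.valuation (xc Pt) ∧
      Av.valuation (((legendreCurve A B : WeierstrassCurve ℚ)⁄Qb) : Affine Qb).a₄ <
        Av.valuation (xc Pt) := by
  have hM := mremf_isMultRed A B hp hp2 ha₂ ha₄ hAB Av hAv
  have hodd := hp.odd_of_ne_two hp2
  cases Pt with
  | zero => exact absurd rfl hP0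
  | some x y h =>
    rw [xc_some] at hx
    rw [xc_some, yc_some]
    have hu' : Av.valuation (algebraMap ℚ Qb (u : ℚ)) = 1 := by
      have : algebraMap ℚ Qb (u : ℚ) = ((u : ℤ) : Qb) := by simp
      rw [this, valuation_intCast_eq_one_iff Av hp hAv]
      exact hu
    have hd' : (((legendreCurve A B : WeierstrassCurve ℚ)⁄Qb) : Affine Qb).a₄ =
        algebraMap ℚ Qb (u : ℚ) * algebraMap ℚ Qb (d : ℚ) ^ p := by
      show algebraMap ℚ Qb (-((A : ℚ) * (B : ℚ))) = _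
      rw [← map_pow, ← map_mul]
      congr 1
      exact_mod_cast hd
    obtain ⟨hβ, l, hl⟩ := mrem_val_x Av.valuation hM hodd (algebraMap ℚ Qb (u : ℚ))
      (algebraMap ℚ Qb (d : ℚ)) hu' hd' h hP hx
    have hx0 : Av.valuation x ≠ 0 := fun h0 => by
      rw [h0] at hβ
      exact not_lt_zero' hβ
    have hcast : algebraMap ℚ Qb ((d : ℚ) ^ (2 * l)) = algebraMap ℚ Qb (d : ℚ) ^ (2 * l) :=
      map_zpow₀ _ _ _
    have hvc : Av.valuation (algebraMap ℚ Qb ((d : ℚ) ^ (2 * l))) = Av.valuation x := by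
      rw [hcast, ← hl]
    have hc0 : (d : ℚ) ^ (2 * l) ≠ 0 := by
      intro h0
      rw [h0, map_zero, map_zero] at hvc
      exact hx0 hvc.symm
    exact ⟨(d : ℚ) ^ (2 * l), hc0, hvc, mrem_val_y Av.valuation hM h hβ hx, hβ⟩

/-- `(E3-node)` in the point language : `v (x (P + T) - x P) = v (z T) * v (x P)` for `P ∈ E[p]`
reducing to the node and `T ≠ 0` in the kernel of reduction. -/
theorem mremp_translate
    (Pt T : (((legendreCurve A B : WeierstrassCurve ℚ)⁄Qb) : Affine Qb).Point)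
    (hP : p • Pt = 0) (hP0 : Pt ≠ 0) (hx : Av.valuation (xc Pt) < 1) (hT0 : T ≠ 0)
    (hTk : InKerRed Av (((legendreCurve A B : WeierstrassCurve ℚ)⁄Qb) : Affine Qb) T) :
    Av.valuation (xc (Pt + T) - xc Pt) =
      Av.valuation (zCoord (((legendreCurve A B : WeierstrassCurve ℚ)⁄Qb) : Affine Qb) T) *
        Av.valuation (xc Pt) := by
  have hM := mremf_isMultRed A B hp hp2 ha₂ ha₄ hAB Av hAv
  obtain ⟨c₀, -, -, -, hβ⟩ :=
    mremp_node_val A B hp hp2 ha₂ ha₄ hAB u d hu hd Av hAv Pt hP hP0 hx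
  cases Pt with
  | zero => exact absurd rfl hP0
  | some x y h =>
    cases T with
    | zero => exact absurd rfl hT0
    | some x₂ y₂ h₂ =>
      rw [xc_some] at hx hβ
      rw [inKerRed_some] at hTk
      rw [xc_some, mremp_val_zCoord, mul_comm]
      exact mrem_translate Av.valuation hM h h₂ hβ hx (one_lt_val_of_not_mem hTk)

/-- `(E3-node)` for `T = σ • P - P` : there is `c₀ ∈ ℚˣ` with `v c₀ = v (x P)`; `τ₀ = x P / c₀` is a
unit and `v (σ τ₀ - τ₀) = v (z (σ • P - P))`.  No hypothesis on `σ` beyond the two on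
`σ • P - P`. -/
theorem mremp_tau (σ : Qb ≃ₐ[ℚ] Qb)
    (Pt : (((legendreCurve A B : WeierstrassCurve ℚ)⁄Qb) : Affine Qb).Point)
    (hP : p • Pt = 0) (hP0 : Pt ≠ 0) (hx : Av.valuation (xc Pt) < 1) (hT0 : σ • Pt - Pt ≠ 0)
    (hTk : InKerRed Av (((legendreCurve A B : WeierstrassCurve ℚ)⁄Qb) : Affine Qb)
      (σ • Pt - Pt)) :
    ∃ c₀ : ℚ, c₀ ≠ 0 ∧ Av.valuation (algebraMap ℚ Qb c₀) = Av.valuation (xc Pt) ∧
      Av.valuation (xc Pt / algebraMap ℚ Qb c₀) = 1 ∧
      Av.valuation (σ (xc Pt / algebraMap ℚ Qb c₀) - xc Pt / algebraMap ℚ Qb c₀) =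
        Av.valuation (zCoord (((legendreCurve A B : WeierstrassCurve ℚ)⁄Qb) : Affine Qb)
          (σ • Pt - Pt)) := by
  obtain ⟨c₀, hc0, hvc, -, hβ⟩ :=
    mremp_node_val A B hp hp2 ha₂ ha₄ hAB u d hu hd Av hAv Pt hP hP0 hx
  have hx0 : Av.valuation (xc Pt) ≠ 0 := fun h0 => by
    rw [h0] at hβ
    exact not_lt_zero' hβ
  refine ⟨c₀, hc0, hvc, ?_, ?_⟩
  · rw [map_div₀, hvc, div_self hx0]
  · have hsum : σ • Pt = Pt + (σ • Pt - Pt) := by abel
    have hσx : σ (xc Pt) = xc (σ • Pt) := by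
      cases Pt with
      | zero => exact absurd rfl hP0
      | some x y h =>
        obtain ⟨h', e⟩ := main_map_some (legendreCurve A B : Affine ℚ) σ h
        rw [Point.algEquiv_smul_def, e, xc_some, xc_some]
    have h3 : σ (xc Pt / algebraMap ℚ Qb c₀) - xc Pt / algebraMap ℚ Qb c₀ =
        (xc (Pt + (σ • Pt - Pt)) - xc Pt) / algebraMap ℚ Qb c₀ := by
      rw [← hsum, ← hσx, map_div₀, σ.commutes]
      field_simp
    rw [h3, map_div₀,
      mremp_translate A B hp hp2 ha₂ ha₄ hAB u d hu hd Av hAv Pt (σ • Pt - Pt) hP hP0 hx hT0 hTk,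
      hvc, mul_div_assoc, div_self hx0, mul_one]

end

end Fermat.Agent.MR
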