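import Mathlib
import Fermat.Prelude.Def_FLTPrelim_GaloisRep
import Fermat.Prelude.Def_FLTPrelim_Ramification
import Fermat.Agent.S05.FreyLegendre
import Fermat.Agent.S05.KerRed
import Fermat.Agent.S05.InertiaDefs
import Fermat.Agent.S05.Legendre

/-!
# MR / E-side, leaf (e1): the inertia shape of `E[p]` at the residue characteristic `p`
(multiplicative reduction, Legendre normalisation with the node at the origin) - SPEC

`W' = legendreCurve A B : Y² = X (X - A) (X + B)`, `A B : ℤ`, `p` an odd prime with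
`p ∣ A * B`, `p ∤ B - A`; `Av` a valuation subring of `Qbar` over `p`; `E = W'⁄Qbar`;
`V' := E[p] ∩ (kernel of reduction at Av)`.

* `MresLine`   : `V'` is cyclic of order `p` (generated by some `T₀ ≠ 0`), and `E[p] ≠ V'`.
* `MresQuot`   : inertia-like automorphisms act trivially on `E[p] / V'`.
* `MresEps`    : inertia-like automorphisms act on `V'` through the cyclotomic character:
                 `σ ζ = ζ ^ e` for a primitive `p`-th root of unity `ζ` implies `σ T = e • T`.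
* `MresE2`     : `v (z T) ^ (p - 1) = v p` for `T ∈ V' ∖ 0` (`z = -x / y`).
* `MresNode`   : every `P ∈ E[p] ∖ V'` reduces to the node: `v (x P) < 1`.

All statements only; the proofs are in `Shape*.lean`.
-/

set_option autoImplicit false

namespace Fermat.Agent.MR

open WeierstrassCurve WeierstrassCurve.Affine Fermat.Agent.S05

local notation "Qb" => AlgebraicClosure ℚ

/-- `V' = E[p] ∩ ker(red)` is cyclic of order `p`, and is not all of `E[p]`. -/
def MresLine (W' : Affine ℚ) (p : ℕ) (Av : ValuationSubring Qb) : Prop :=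
  (∃ T₀ : (W'⁄Qb).Point, T₀ ≠ 0 ∧ p • T₀ = 0 ∧ InKerRed Av (W'⁄Qb) T₀ ∧
    ∀ T : (W'⁄Qb).Point, p • T = 0 → InKerRed Av (W'⁄Qb) T → ∃ k : ℕ, T = k • T₀) ∧
  ∃ P : (W'⁄Qb).Point, p • P = 0 ∧ ¬ InKerRed Av (W'⁄Qb) P

/-- inertia-like automorphisms act trivially on `E[p] / V'`. -/
def MresQuot (W' : Affine ℚ) (p : ℕ) (Av : ValuationSubring Qb) : Prop :=
  ∀ σ : Qb ≃ₐ[ℚ] Qb, IsInertiaLike Av.valuation σ →
    ∀ P : (W'⁄Qb).Point, p • P = 0 → InKerRed Av (W'⁄Qb) (σ • P - P)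

/-- inertia-like automorphisms act on `V'` through the mod `p` cyclotomic character. -/
def MresEps (W' : Affine ℚ) (p : ℕ) (Av : ValuationSubring Qb) : Prop :=
  ∀ σ : Qb ≃ₐ[ℚ] Qb, IsInertiaLike Av.valuation σ →
    ∀ (ζ : Qb) (e : ℕ), ζ ≠ 1 → ζ ^ p = 1 → σ ζ = ζ ^ e →
      ∀ T : (W'⁄Qb).Point, p • T = 0 → InKerRed Av (W'⁄Qb) T → σ • T = e • T

/-- (E2): the exact size of the local parameter on `V' ∖ 0`. -/
def MresE2 (W' : Affine ℚ) (p : ℕ) (Av : ValuationSubring Qb) : Prop :=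
  ∀ T : (W'⁄Qb).Point, T ≠ 0 → p • T = 0 → InKerRed Av (W'⁄Qb) T →
    Av.valuation (zCoord (W'⁄Qb) T) ^ (p - 1) = Av.valuation (p : Qb)

/-- a `p`-torsion point outside `V'` reduces to the node `(0,0)`. -/
def MresNode (W' : Affine ℚ) (p : ℕ) (Av : ValuationSubring Qb) : Prop :=
  ∀ P : (W'⁄Qb).Point, p • P = 0 → ¬ InKerRed Av (W'⁄Qb) P → Av.valuation (xc P) < 1

/-- the hypotheses on the Legendre model: multiplicative reduction at `p` with the node at the
origin and `p ∣ v (a₄)` in the strong form `a₄ = unit * d ^ p`. -/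
structure MresHyp (A B : ℤ) (p : ℕ) (Av : ValuationSubring Qb) : Prop where
  pp : p.Prime
  p2 : p ≠ 2
  lies : Av.LiesOverPrime p
  a₂ : ¬ (p : ℤ) ∣ B - A
  a₄ : (p : ℤ) ∣ A * B
  disc : A ≠ 0 ∧ B ≠ 0 ∧ A + B ≠ 0
  pow : ∃ u d : ℤ, ¬ (p : ℤ) ∣ u ∧ -(A * B) = u * d ^ p ∧ d ≠ 0

/-- **SPEC of leaf (e1)**: the inertia shape at `p`. -/
def MresShapeSpec : Prop :=
  ∀ (A B : ℤ) (p : ℕ) (Av : ValuationSubring Qb), MresHyp A B p Av →
    MresLine (legendreCurve A B) p Av ∧ MresQuot (legendreCurve A B) p Av ∧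
      MresEps (legendreCurve A B) p Av ∧ MresE2 (legendreCurve A B) p Av ∧
        MresNode (legendreCurve A B) p Av

end Fermat.Agent.MR
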