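import Mathlib

/-!
# MR / E-side, leaf (e1), file ShapeGauss: the Gauss factorisation of a split polynomial at a
valuation subring

`K` algebraically closed, `A` a valuation subring, `f ≠ 0` in `K[X]`.  Then
`f = C c * q` with `c = lc(f) * ∏_{r root, r ∉ A} (-r)`, where `q` has coefficients in `A`, one of
them a unit, and `q(0) = ∏_{r root, r ∈ A} (-r)` (`mres_gauss`).  Consequences for `f` with
coefficients in `A`: `v c ≤ 1` (`mres_gauss_le`), and `v c = 1` if `f` is primitive
(`mres_gauss_eq`).
-/

set_option autoImplicit false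

namespace Fermat.Agent.MR

open Polynomial

variable {K : Type*} [Field K] (A : ValuationSubring K)

/-- coefficients of `X * q` stay in `A`. -/
lemma mres_coeff_X_mul_mem {q : K[X]} (hq : ∀ i, q.coeff i ∈ A) (i : ℕ) :
    (X * q).coeff i ∈ A := by
  cases i with
  | zero => rw [coeff_X_mul_zero]; exact zero_mem _
  | succ i => rw [coeff_X_mul]; exact hq i

/-- multiplying by `1 - C s * X` with `v s < 1` keeps the coefficients in `A` and the residue class
of the coefficient `n`. -/
lemma mres_gauss_step {q : K[X]} {n : ℕ} (hq : ∀ i, q.coeff i ∈ A)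
    (hn : A.valuation (q.coeff n - 1) < 1) {s : K} (hs : A.valuation s < 1) :
    (∀ i, ((1 - C s * X) * q).coeff i ∈ A) ∧
      A.valuation (((1 - C s * X) * q).coeff n - 1) < 1 := by
  have hsA : s ∈ A := (A.valuation_le_one_iff s).mp hs.le
  have e : (1 - C s * X) * q = q - C s * (X * q) := by ring
  have hc : ∀ i, ((1 - C s * X) * q).coeff i = q.coeff i - s * (X * q).coeff i := by
    intro i
    rw [e, coeff_sub, coeff_C_mul]
  refine ⟨fun i => ?_, ?_⟩
  · rw [hc]
    exact sub_mem (hq i) (mul_mem hsA (mres_coeff_X_mul_mem A hq i))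
  · rw [hc]
    have e2 : q.coeff n - s * (X * q).coeff n - 1 = (q.coeff n - 1) - s * (X * q).coeff n := by
      ring
    rw [e2]
    refine (A.valuation).map_sub_lt hn ?_
    rw [map_mul]
    have h1 : A.valuation ((X * q).coeff n) ≤ 1 :=
      (A.valuation_le_one_iff _).mpr (mres_coeff_X_mul_mem A hq n)
    calc A.valuation s * A.valuation ((X * q).coeff n) ≤ A.valuation s * 1 := by gcongr
      _ = A.valuation s := mul_one _
      _ < 1 := hs

/-- the same for a product over a multiset of `s` with `v s < 1`. -/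
lemma mres_gauss_steps (M : Multiset K) (hM : ∀ s ∈ M, A.valuation s < 1) {q : K[X]} {n : ℕ}
    (hq : ∀ i, q.coeff i ∈ A) (hn : A.valuation (q.coeff n - 1) < 1) :
    (∀ i, ((M.map fun s => (1 - C s * X : K[X])).prod * q).coeff i ∈ A) ∧
      A.valuation (((M.map fun s => (1 - C s * X : K[X])).prod * q).coeff n - 1) < 1 := by
  induction M using Multiset.induction_on with
  | empty => simpa using ⟨hq, hn⟩
  | cons s M ih =>
    have ih' := ih (fun t ht => hM t (Multiset.mem_cons_of_mem ht))
    have := mres_gauss_step A ih'.1 ih'.2 (hM s (Multiset.mem_cons_self s M))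
    rw [Multiset.map_cons, Multiset.prod_cons, mul_assoc]
    exact this

/-- a product of `X - C r`, `r ∈ A`, has coefficients in `A`. -/
lemma mres_prod_X_sub_C_coeff_mem (M : Multiset K) (hM : ∀ r ∈ M, r ∈ A) (i : ℕ) :
    ((M.map fun r => (X - C r : K[X])).prod).coeff i ∈ A := by
  induction M using Multiset.induction_on generalizing i with
  | empty =>
    simp only [Multiset.map_zero, Multiset.prod_zero, coeff_one]
    split_ifs
    · exact one_mem _
    · exact zero_mem _
  | cons r M ih =>
    have ih' : ∀ i, ((M.map fun r => (X - C r : K[X])).prod).coeff i ∈ A :=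
      fun i => ih (fun t ht => hM t (Multiset.mem_cons_of_mem ht)) i
    rw [Multiset.map_cons, Multiset.prod_cons, sub_mul, coeff_sub, coeff_C_mul]
    exact sub_mem (mres_coeff_X_mul_mem A ih' i)
      (mul_mem (hM r (Multiset.mem_cons_self r M)) (ih' i))

omit A in
lemma mres_coeff_zero_prod_one_sub (M : Multiset K) :
    ((M.map fun s => (1 - C s * X : K[X])).prod).coeff 0 = 1 := by
  induction M using Multiset.induction_on with
  | empty => simp
  | cons s M ih =>
    rw [Multiset.map_cons, Multiset.prod_cons, mul_coeff_zero, ih]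
    simp

omit A in
lemma mres_coeff_zero_prod_X_sub_C (M : Multiset K) :
    ((M.map fun r => (X - C r : K[X])).prod).coeff 0 = (M.map fun r => -r).prod := by
  induction M using Multiset.induction_on with
  | empty => simp
  | cons r M ih =>
    rw [Multiset.map_cons, Multiset.prod_cons, mul_coeff_zero, ih, Multiset.map_cons,
      Multiset.prod_cons]
    simp

/-- **Gauss factorisation** of a split polynomial at a valuation subring. -/
theorem mres_gauss [IsAlgClosed K] [DecidablePred (· ∈ A)] (f : K[X]) (hf : f ≠ 0) :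
    ∃ q : K[X], (∀ i, q.coeff i ∈ A) ∧ (∃ n, A.valuation (q.coeff n) = 1) ∧
      q.coeff 0 = ((f.roots.filter (· ∈ A)).map (fun r => -r)).prod ∧
      f = C (f.leadingCoeff * ((f.roots.filter (· ∉ A)).map (fun r => -r)).prod) * q := by
  set Ri := f.roots.filter (· ∈ A) with hRi
  set Rn := f.roots.filter (· ∉ A) with hRn
  have hsplit : f.roots = Ri + Rn := (Multiset.filter_add_not _ _).symm
  have hRimem : ∀ r ∈ Ri, r ∈ A := fun r hr => (Multiset.mem_filter.mp hr).2
  have hRnmem : ∀ r ∈ Rn, r ∉ A := fun r hr => (Multiset.mem_filter.mp hr).2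
  set h : K[X] := (Ri.map fun r => (X - C r : K[X])).prod with hh
  set g : K[X] := ((Rn.map fun r => r⁻¹).map fun s => (1 - C s * X : K[X])).prod with hg
  have hhA : ∀ i, h.coeff i ∈ A := mres_prod_X_sub_C_coeff_mem A Ri hRimem
  have hhmonic : h.Monic := monic_multiset_prod_of_monic _ _ (fun r _ => monic_X_sub_C r)
  have hhdeg : h.natDegree = Multiset.card Ri := by
    rw [hh]
    exact natDegree_multiset_prod_X_sub_C_eq_card Ri
  have hhn : A.valuation (h.coeff (Multiset.card Ri) - 1) < 1 := by
    rw [← hhdeg, hhmonic.coeff_natDegree, sub_self, map_zero]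
    exact zero_lt_one
  have hinv : ∀ s ∈ Rn.map (fun r => r⁻¹), A.valuation s < 1 := by
    intro s hs
    obtain ⟨r, hr, rfl⟩ := Multiset.mem_map.mp hs
    have h1 : 1 < A.valuation r := by
      rw [← not_le]
      exact fun hle => hRnmem r hr ((A.valuation_le_one_iff r).mp hle)
    rw [map_inv₀]
    exact inv_lt_one_of_one_lt₀ h1
  obtain ⟨hqA, hqn⟩ := mres_gauss_steps A (Rn.map fun r => r⁻¹) hinv hhA hhn
  refine ⟨g * h, hqA, ⟨Multiset.card Ri, ?_⟩, ?_, ?_⟩
  · have e : (g * h).coeff (Multiset.card Ri) = 1 + ((g * h).coeff (Multiset.card Ri) - 1) := by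
      ring
    rw [e, (A.valuation).map_add_eq_of_lt_left (by rw [map_one]; exact hqn), map_one]
  · rw [mul_coeff_zero, hg, hh, mres_coeff_zero_prod_one_sub, mres_coeff_zero_prod_X_sub_C,
      one_mul]
  · have hprod : (Rn.map fun r => (X - C r : K[X])).prod =
        C ((Rn.map fun r => -r).prod) * g := by
      rw [hg, Multiset.map_map]
      have : ∀ r ∈ Rn, (X - C r : K[X]) = C (-r) * (1 - C r⁻¹ * X) := by
        intro r hr
        have hr0 : r ≠ 0 := fun h0 => hRnmem r hr (h0 ▸ zero_mem _)
        rw [mul_sub, mul_one, ← mul_assoc, ← C_mul, neg_mul, mul_inv_cancel₀ hr0]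
        simp
        ring
      rw [Multiset.map_congr rfl this, Multiset.prod_map_mul, ← Multiset.prod_hom _ (C : K →+* K[X]),
        Multiset.map_map]
      rfl
    conv_lhs => rw [(IsAlgClosed.splits f).eq_prod_roots, hsplit, Multiset.map_add,
      Multiset.prod_add, hprod]
    rw [C_mul]
    ring

/-- if `f` has coefficients in `A` then the Gauss constant lies in `A`. -/
theorem mres_gauss_le [IsAlgClosed K] [DecidablePred (· ∈ A)] (f : K[X]) (hf : f ≠ 0)
    (hfA : ∀ i, f.coeff i ∈ A) :
    A.valuation (f.leadingCoeff * ((f.roots.filter (· ∉ A)).map (fun r => -r)).prod) ≤ 1 := by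
  obtain ⟨q, hqA, ⟨n, hn⟩, -, hfq⟩ := mres_gauss A f hf
  have h1 := (A.valuation_le_one_iff _).mpr (hfA n)
  rw [hfq, coeff_C_mul, map_mul, hn, mul_one] at h1
  exact h1

/-- if moreover `f` is primitive at `A`, the Gauss constant is a unit. -/
theorem mres_gauss_eq [IsAlgClosed K] [DecidablePred (· ∈ A)] (f : K[X]) (hf : f ≠ 0)
    (hfA : ∀ i, f.coeff i ∈ A) (hprim : ∃ i, A.valuation (f.coeff i) = 1) :
    A.valuation (f.leadingCoeff * ((f.roots.filter (· ∉ A)).map (fun r => -r)).prod) = 1 := by
  refine le_antisymm (mres_gauss_le A f hf hfA) ?_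
  obtain ⟨q, hqA, -, -, hfq⟩ := mres_gauss A f hf
  obtain ⟨i, hi⟩ := hprim
  rw [hfq, coeff_C_mul, map_mul] at hi
  have h1 : A.valuation (q.coeff i) ≤ 1 := (A.valuation_le_one_iff _).mpr (hqA i)
  rw [← hi]
  exact mul_le_of_le_one_right' h1

end Fermat.Agent.MR
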