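import Mathlib
import Fermat.Agent.S13.DPE

/-!
# MR / E-side, leaf (e1), file ShapePsi: the division polynomial `preΨ_p` of a nodal Legendre model

`W₀ : Y² = X³ + a₂X² + a₄X` over `ℤ`, `p` an odd prime with `p ∤ a₂`, `p ∣ a₄`.

* `mres_preΨ_eval_zero` : (node at the origin) if `a₃ = a₄ = a₆ = 0` then `preΨ_n(0) = 0` for
  every `n ≥ 3` (any commutative ring).
* `mres_preΨ_coeff_zero_dvd` : `p ∣ (W₀.preΨ p).coeff 0`.
* `mres_preΨ_primitive` : some coefficient of `W₀.preΨ p` is prime to `p` (the reduced curve has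
  the NONSINGULAR point `(-a₂, 0)` of order two, which is not killed by the odd number `p`).
-/

set_option autoImplicit false

namespace Fermat.Agent.MR

open WeierstrassCurve WeierstrassCurve.Affine Polynomial Fermat.Agent.S13

section node

variable {R : Type*} [CommRing R] (W : WeierstrassCurve R)

/-- node at the origin: `preΨ'_n(0) = 0` for `n ≥ 3`. -/
theorem mres_preΨ'_eval_zero (h₃ : W.a₃ = 0) (h₄ : W.a₄ = 0) (h₆ : W.a₆ = 0) (n : ℕ)
    (hn : 3 ≤ n) : (W.preΨ' n).eval 0 = 0 := by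
  have hb4 : W.b₄ = 0 := by rw [WeierstrassCurve.b₄, h₃, h₄]; ring
  have hb6 : W.b₆ = 0 := by rw [WeierstrassCurve.b₆, h₃, h₆]; ring
  have hb8 : W.b₈ = 0 := by rw [WeierstrassCurve.b₈, h₃, h₄, h₆]; ring
  have h3 : (W.preΨ' 3).eval 0 = 0 := by
    rw [preΨ'_three, WeierstrassCurve.Ψ₃, hb8]
    simp
  have h4 : (W.preΨ' 4).eval 0 = 0 := by
    rw [preΨ'_four, WeierstrassCurve.preΨ₄, hb4, hb6, hb8]
    simp
  induction n using Nat.strong_induction_on with
  | _ n ih =>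
    rcases Nat.even_or_odd' n with ⟨k, rfl | rfl⟩
    · -- `n = 2 k`
      rcases Nat.lt_or_ge k 3 with hk | hk
      · have : k = 2 := by omega
        subst this
        exact h4
      · obtain ⟨m, rfl⟩ : ∃ m, k = m + 3 := ⟨k - 3, by omega⟩
        rw [preΨ'_even, eval_sub, eval_mul, eval_mul, eval_mul, eval_mul,
          ih (m + 3) (by omega) (by omega)]
        ring
    · -- `n = 2 k + 1`
      rcases Nat.lt_or_ge k 2 with hk | hk
      · have : k = 1 := by omega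
        subst this
        exact h3
      · obtain ⟨m, rfl⟩ : ∃ m, k = m + 2 := ⟨k - 2, by omega⟩
        rw [preΨ'_odd, eval_sub, eval_mul, eval_mul, eval_mul, eval_mul, eval_pow, eval_pow,
          ih (m + 4) (by omega) (by omega), ih (m + 3) (by omega) (by omega)]
        ring

theorem mres_preΨ_eval_zero (h₃ : W.a₃ = 0) (h₄ : W.a₄ = 0) (h₆ : W.a₆ = 0) (n : ℕ)
    (hn : 3 ≤ n) : (W.preΨ (n : ℤ)).eval 0 = 0 := by
  rw [preΨ_ofNat]
  exact mres_preΨ'_eval_zero W h₃ h₄ h₆ n hn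

end node

section legendre

variable (W₀ : WeierstrassCurve ℤ) {p : ℕ}

/-- `p ∣ preΨ_p(0)` when the reduction mod `p` has a node at the origin. -/
theorem mres_preΨ_coeff_zero_dvd (hp : p.Prime) (hp2 : p ≠ 2) (h₃ : W₀.a₃ = 0)
    (h₄ : (p : ℤ) ∣ W₀.a₄) (h₆ : W₀.a₆ = 0) : (p : ℤ) ∣ (W₀.preΨ (p : ℤ)).coeff 0 := by
  have hp3 : 3 ≤ p := by
    have := hp.two_le
    omega
  set φ : ℤ →+* ZMod p := Int.castRingHom (ZMod p) with hφ
  have h := mres_preΨ_eval_zero (W₀.map φ) (by simp [h₃]) ?_ (by simp [h₆]) p hp3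
  · rw [map_preΨ, ← coeff_zero_eq_eval_zero, coeff_map] at h
    exact (ZMod.intCast_zmod_eq_zero_iff_dvd _ p).mp h
  · simp only [WeierstrassCurve.map_a₄, hφ, eq_intCast]
    exact (ZMod.intCast_zmod_eq_zero_iff_dvd _ p).mpr h₄

/-- `preΨ_p` is primitive at `p` for a nodal Legendre model. -/
theorem mres_preΨ_primitive (hp : p.Prime) (hp2 : p ≠ 2) (h₁ : W₀.a₁ = 0) (h₃ : W₀.a₃ = 0)
    (h₂ : ¬ (p : ℤ) ∣ W₀.a₂) (h₄ : (p : ℤ) ∣ W₀.a₄) (h₆ : W₀.a₆ = 0) :
    ∃ i, ¬ (p : ℤ) ∣ (W₀.preΨ (p : ℤ)).coeff i := by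
  haveI : Fact p.Prime := ⟨hp⟩
  by_contra hall
  push Not at hall
  set φ : ℤ →+* ZMod p := Int.castRingHom (ZMod p) with hφ
  set Wb : Affine (ZMod p) := W₀.map φ with hWb
  -- the reduced polynomial vanishes
  have hzero : Wb.preΨ (p : ℤ) = 0 := by
    rw [hWb, map_preΨ]
    ext i
    rw [coeff_map, coeff_zero]
    exact (ZMod.intCast_zmod_eq_zero_iff_dvd _ p).mpr (hall i)
  -- coefficients of the reduced curve
  have e₁ : Wb.a₁ = 0 := by simp [hWb, h₁]
  have e₃ : Wb.a₃ = 0 := by simp [hWb, h₃]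
  have e₆ : Wb.a₆ = 0 := by simp [hWb, h₆]
  have e₄ : Wb.a₄ = 0 := by
    simp only [hWb, WeierstrassCurve.map_a₄, hφ, eq_intCast]
    exact (ZMod.intCast_zmod_eq_zero_iff_dvd _ p).mpr h₄
  have e₂ : Wb.a₂ ≠ 0 := by
    simp only [hWb, WeierstrassCurve.map_a₂, hφ, eq_intCast]
    exact fun h => h₂ ((ZMod.intCast_zmod_eq_zero_iff_dvd _ p).mp h)
  -- the nonsingular point `(-a₂, 0)`
  have heq : Wb.Equation (-Wb.a₂) 0 := by
    rw [Affine.equation_iff, e₁, e₃, e₄, e₆]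
    ring
  have hns : Wb.Nonsingular (-Wb.a₂) 0 := by
    rw [Affine.nonsingular_iff]
    refine ⟨heq, Or.inl ?_⟩
    rw [e₁, e₄]
    intro h
    apply e₂
    have : Wb.a₂ ^ 2 = 0 := by linear_combination -h
    exact pow_eq_zero_iff two_ne_zero |>.mp this
  set T : Wb.Point := Point.some _ _ hns with hT
  have hneg : -T = T := by
    rw [hT, Point.neg_some]
    congr 1
    rw [Affine.negY, e₁, e₃]
    ring
  have h2T : 2 • T = 0 := by
    rw [two_nsmul]
    nth_rewrite 1 [← hneg]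
    exact neg_add_cancel T
  have hpT : p • T ≠ 0 := by
    obtain ⟨k, hk⟩ := hp.odd_of_ne_two hp2
    have e : p • T = T := by
      have : p • T = (2 * k + 1) • T := congrArg (· • T) hk
      rw [this, add_smul, mul_smul, smul_comm, h2T, nsmul_zero, zero_add, one_smul]
    rw [e]
    exact Point.some_ne_zero hns
  apply hpT
  rw [hT, nsmul_eq_zero_iff_dpv_eq_zero hns hp,
    dpv_eq_eval_preΨ_of_odd heq (dpf_odd_of_prime' hp hp2), hzero, eval_zero]
where
  dpf_odd_of_prime' {p : ℕ} (hp : p.Prime) (hp2 : p ≠ 2) : Odd (p : ℤ) := by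
    have := hp.eq_two_or_odd'.resolve_left hp2
    exact_mod_cast this

end legendre

end Fermat.Agent.MR
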