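import Mathlib
import Fermat.Agent.S13.ProductTrick
import Fermat.Agent.MR.ESide.ShapeGauss
import Fermat.Agent.MR.ESide.ShapePsi

/-!
# MR / E-side, leaf (e1), file ShapeCore: the Newton polygon of `preΨ_p` at a node

`W₀ : Y² = X³ + a₂X² + a₄X` over `ℤ` (`a₁ = a₃ = a₆ = 0`), `Δ ≠ 0`, `p` an odd prime, `p ∤ a₂`,
`p ∣ a₄`; `Av` a valuation subring of `Qbar` over `p`; `E = W₀ ⊗ Qbar`, `f = preΨ_p`.

* `mres_core_star` : `v p * ∏_{r root of f, r ∉ Av} v r = 1`;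
* `mres_core_exists_node` : some non-zero `p`-torsion point has `v (x P) < 1`.
-/

set_option autoImplicit false

namespace Fermat.Agent.MR

open WeierstrassCurve WeierstrassCurve.Affine WeierstrassCurve.Affine.Point Polynomial
open Fermat.Agent.S05 Fermat.Agent.S13

local notation "Qb" => AlgebraicClosure ℚ

/-- the hypotheses of the core: a nodal Legendre model over `ℤ` at an odd prime `p`. -/
structure MresCore (W₀ : WeierstrassCurve ℤ) (W' : Affine ℚ) (p : ℕ)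
    (Av : ValuationSubring Qb) : Prop where
  map : W' = W₀.map (Int.castRingHom ℚ)
  a₁ : W₀.a₁ = 0
  a₃ : W₀.a₃ = 0
  a₆ : W₀.a₆ = 0
  a₂ : ¬ (p : ℤ) ∣ W₀.a₂
  a₄ : (p : ℤ) ∣ W₀.a₄
  disc : W'.Δ ≠ 0
  pp : p.Prime
  p2 : p ≠ 2
  lies : Av.LiesOverPrime p

namespace MresCore

variable {W₀ : WeierstrassCurve ℤ} {W' : Affine ℚ} {p : ℕ} {Av : ValuationSubring Qb}

lemma disc' (h : MresCore W₀ W' p Av) : (W'⁄Qb).Δ ≠ 0 := by
  change (W'.map (algebraMap ℚ Qb)).Δ ≠ 0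
  rw [WeierstrassCurve.map_Δ]
  exact (_root_.map_ne_zero _).mpr h.disc

lemma p_ne (h : MresCore W₀ W' p Av) : ((p : ℤ) : Qb) ≠ 0 := by
  exact_mod_cast h.pp.ne_zero

lemma odd (h : MresCore W₀ W' p Av) : Odd (p : ℤ) := by
  have := h.pp.eq_two_or_odd'.resolve_left h.p2
  exact_mod_cast this

lemma val_p_lt (h : MresCore W₀ W' p Av) : Av.valuation (p : Qb) < 1 :=
  (ValuationSubring.mem_nonunits_iff (A := Av)).mp h.lies

lemma poly_ne (h : MresCore W₀ W' p Av) : (W'⁄Qb).preΨ (p : ℤ) ≠ 0 :=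
  (W'⁄Qb).preΨ_ne_zero h.p_ne

lemma leadingCoeff (h : MresCore W₀ W' p Av) :
    ((W'⁄Qb).preΨ (p : ℤ)).leadingCoeff = (p : Qb) := by
  rw [leadingCoeff_preΨ _ h.p_ne, if_neg (Int.not_even_iff_odd.mpr h.odd)]
  simp

lemma coeff_mem (h : MresCore W₀ W' p Av) (i : ℕ) : ((W'⁄Qb).preΨ (p : ℤ)).coeff i ∈ Av := by
  rw [pt_preΨ_coeff W₀ W' h.map]
  exact intCast_mem Av _

lemma primitive (h : MresCore W₀ W' p Av) :
    ∃ i, Av.valuation (((W'⁄Qb).preΨ (p : ℤ)).coeff i) = 1 := by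
  obtain ⟨i, hi⟩ := mres_preΨ_primitive W₀ h.pp h.p2 h.a₁ h.a₃ h.a₂ h.a₄ h.a₆
  refine ⟨i, ?_⟩
  rw [pt_preΨ_coeff W₀ W' h.map]
  exact (valuation_intCast_eq_one_iff Av h.pp h.lies _).mpr hi

lemma coeff_zero_lt (h : MresCore W₀ W' p Av) :
    Av.valuation (((W'⁄Qb).preΨ (p : ℤ)).coeff 0) < 1 := by
  rw [pt_preΨ_coeff W₀ W' h.map]
  refine lt_of_le_of_ne (valuation_intCast_le_one Av _) ?_
  rw [Ne, valuation_intCast_eq_one_iff Av h.pp h.lies, not_not]
  exact mres_preΨ_coeff_zero_dvd W₀ h.pp h.p2 h.a₃ h.a₄ h.a₆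

lemma root_iff (h : MresCore W₀ W' p Av) (r : Qb) :
    r ∈ ((W'⁄Qb).preΨ (p : ℤ)).roots ↔
      ∃ P : (W'⁄Qb).Point, P ≠ 0 ∧ p • P = 0 ∧ xc P = r := by
  rw [mem_roots h.poly_ne, IsRoot.def]
  exact eval_preΨ_eq_zero_iff h.disc' h.pp h.p2 r

open Classical in
/-- **the Newton polygon identity**: `v p * ∏_{r ∉ Av} v r = 1` -/
theorem star (h : MresCore W₀ W' p Av) :
    Av.valuation (p : Qb) *
      ((((W'⁄Qb).preΨ (p : ℤ)).roots.filter (· ∉ Av)).map Av.valuation).prod = 1 := by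
  have key := mres_gauss_eq Av _ h.poly_ne h.coeff_mem h.primitive
  rw [h.leadingCoeff, map_mul, map_multiset_prod, Multiset.map_map] at key
  have e : (Av.valuation ∘ fun r : Qb => -r) = Av.valuation := by
    funext r
    simp
  rw [e] at key
  exact key

open Classical in
/-- the product of the integral roots has valuation `< 1` -/
theorem int_prod_lt (h : MresCore W₀ W' p Av) :
    ((((W'⁄Qb).preΨ (p : ℤ)).roots.filter (· ∈ Av)).map Av.valuation).prod < 1 := by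
  obtain ⟨q, -, -, hq0, hfq⟩ := mres_gauss Av _ h.poly_ne
  have key := mres_gauss_eq Av _ h.poly_ne h.coeff_mem h.primitive
  have h0 := h.coeff_zero_lt
  rw [hfq, coeff_C_mul, map_mul, key, one_mul, hq0, map_multiset_prod, Multiset.map_map] at h0
  have e : (Av.valuation ∘ fun r : Qb => -r) = Av.valuation := by
    funext r
    simp
  rw [e] at h0
  exact h0

/-- **some `p`-torsion point reduces to the node** -/
theorem exists_node (h : MresCore W₀ W' p Av) :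
    ∃ P : (W'⁄Qb).Point, P ≠ 0 ∧ p • P = 0 ∧ Av.valuation (xc P) < 1 := by
  classical
  have hlt := h.int_prod_lt
  by_contra hcon
  push Not at hcon
  apply absurd hlt
  rw [not_lt]
  apply Multiset.one_le_prod_of_one_le
  intro a ha
  obtain ⟨r, hr, rfl⟩ := Multiset.mem_map.mp ha
  obtain ⟨P, hP0, hpP, rfl⟩ := (h.root_iff r).mp (Multiset.mem_filter.mp hr).1
  exact hcon P hP0 hpP

end MresCore

end Fermat.Agent.MR
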