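import Mathlib
import Fermat.Agent.S41.NE.Tors
import Fermat.Agent.MR.ESide.ShapeCore

/-!
# MR / E-side, leaf (e1), file ShapeCount: `V' = E[p] ∩ ker(red)` has order `p`; (E2)

Setting of `ShapeCore` (`MresCore W₀ W' p Av`), `E = W'⁄Qbar`.

* `mresEp`, `mresV` : the subgroups `E[p]` and `V' = E[p] ∩ ker(red)` of `E(Qbar)`;
* `MresCore.card_V` : `#V' = p`;
* `MresCore.exists_zsmul` : `V'` is generated by any of its non-zero elements;
* `MresCore.e2` : **(E2)** `v (z T) ^ (p - 1) = v p` for `T ∈ V' ∖ 0`.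
-/

set_option autoImplicit false

namespace Fermat.Agent.MR

open WeierstrassCurve WeierstrassCurve.Affine WeierstrassCurve.Affine.Point Polynomial
open Fermat.Agent.S05 Fermat.Agent.S13 Fermat.Agent.S41

local notation "Qb" => AlgebraicClosure ℚ

namespace MresCore

variable {W₀ : WeierstrassCurve ℤ} {W' : Affine ℚ} {p : ℕ} {Av : ValuationSubring Qb}

lemma integral (h : MresCore W₀ W' p Av) : IsIntegralAt Av (W'⁄Qb) := by
  rw [pt_baseChange_eq W₀ W' h.map]
  refine ⟨?_, ?_, ?_, ?_, ?_⟩ <;> exact intCast_mem Av _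

end MresCore

/-- the `p`-torsion subgroup -/
noncomputable def mresEp (W' : Affine ℚ) (p : ℕ) : AddSubgroup (W'⁄Qb).Point where
  carrier := {P | p • P = 0}
  zero_mem' := smul_zero p
  add_mem' := fun {P Q} hP hQ => by
    show p • (P + Q) = 0
    rw [nsmul_add, hP, hQ, add_zero]
  neg_mem' := fun {P} hP => by
    show p • (-P) = 0
    rw [neg_nsmul, hP, _root_.neg_zero]

/-- `V' = E[p] ∩ ker(red)` -/
noncomputable def mresV (W' : Affine ℚ) (p : ℕ) (Av : ValuationSubring Qb) (hI : IsIntegralAt Av (W'⁄Qb)) :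
    AddSubgroup (W'⁄Qb).Point where
  carrier := {P | p • P = 0 ∧ InKerRed Av (W'⁄Qb) P}
  zero_mem' := ⟨smul_zero p, inKerRed_zero⟩
  add_mem' := fun {P Q} hP hQ => ⟨by rw [nsmul_add, hP.1, hQ.1, add_zero],
    inKerRed_add hI hP.2 hQ.2⟩
  neg_mem' := fun {P} hP => ⟨by rw [neg_nsmul, hP.1, _root_.neg_zero], inKerRed_neg hP.2⟩

lemma mem_mresEp {W' : Affine ℚ} {p : ℕ} {P : (W'⁄Qb).Point} : P ∈ mresEp W' p ↔ p • P = 0 :=
  Iff.rfl

lemma mem_mresV {W' : Affine ℚ} {p : ℕ} {Av : ValuationSubring Qb}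
    {hI : IsIntegralAt Av (W'⁄Qb)} {P : (W'⁄Qb).Point} :
    P ∈ mresV W' p Av hI ↔ p • P = 0 ∧ InKerRed Av (W'⁄Qb) P := Iff.rfl

lemma mresV_le {W' : Affine ℚ} {p : ℕ} {Av : ValuationSubring Qb}
    (hI : IsIntegralAt Av (W'⁄Qb)) : mresV W' p Av hI ≤ mresEp W' p := fun _ hP => hP.1

namespace MresCore

variable {W₀ : WeierstrassCurve ℤ} {W' : Affine ℚ} {p : ℕ} {Av : ValuationSubring Qb}

lemma card_Ep (h : MresCore W₀ W' p Av) : Nat.card (mresEp W' p) = p ^ 2 :=
  s41net_card_torsion_prime h.disc' h.pp h.p2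

lemma finite_Ep (h : MresCore W₀ W' p Av) : Finite (mresEp W' p) :=
  Nat.finite_of_card_ne_zero (by rw [h.card_Ep]; exact pow_ne_zero 2 h.pp.ne_zero)

/-- `V' ≠ 0` -/
lemma V_ne_bot (h : MresCore W₀ W' p Av) : mresV W' p Av h.integral ≠ ⊥ := by
  classical
  intro hbot
  have hstar := h.star
  have hempty : ((W'⁄Qb).preΨ (p : ℤ)).roots.filter (· ∉ Av) = 0 := by
    rw [Multiset.filter_eq_nil]
    intro r hr hrA
    obtain ⟨P, hP0, hpP, rfl⟩ := (h.root_iff r).mp hr
    apply hP0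
    have hPV : P ∈ mresV W' p Av h.integral := by
      refine ⟨hpP, ?_⟩
      rcases P with _ | ⟨x, y, hxy⟩
      · exact inKerRed_zero
      · exact hrA
    rw [hbot] at hPV
    exact (AddSubgroup.mem_bot).mp hPV
  rw [hempty, Multiset.map_zero, Multiset.prod_zero, mul_one] at hstar
  exact absurd hstar h.val_p_lt.ne

/-- `V' ≠ E[p]` -/
lemma V_ne_Ep (h : MresCore W₀ W' p Av) : mresV W' p Av h.integral ≠ mresEp W' p := by
  intro heq
  obtain ⟨P, hP0, hpP, hx⟩ := h.exists_node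
  have hPV : P ∈ mresV W' p Av h.integral := by
    rw [heq]
    exact hpP
  rcases P with _ | ⟨x, y, hxy⟩
  · exact hP0 rfl
  · exact hPV.2 ((Av.valuation_le_one_iff _).mp hx.le)

/-- **`#V' = p`** -/
theorem card_V (h : MresCore W₀ W' p Av) : Nat.card (mresV W' p Av h.integral) = p := by
  haveI := h.finite_Ep
  have hdvd : Nat.card (mresV W' p Av h.integral) ∣ p ^ 2 := by
    rw [← h.card_Ep]
    exact AddSubgroup.card_dvd_of_le (mresV_le h.integral)
  obtain ⟨m, hm, hcard⟩ := (Nat.dvd_prime_pow h.pp).mp hdvd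
  interval_cases m
  · exfalso
    apply h.V_ne_bot
    rw [pow_zero] at hcard
    exact (AddSubgroup.card_eq_one).mp hcard
  · rw [hcard, pow_one]
  · exfalso
    apply h.V_ne_Ep
    haveI : Finite (mresEp W' p) := h.finite_Ep
    refine AddSubgroup.eq_of_le_of_card_ge (mresV_le h.integral) ?_
    rw [hcard, h.card_Ep]

lemma mres_val_natCast (h : MresCore W₀ W' p Av) {k : ℕ} (hk : ¬ p ∣ k) :
    Av.valuation (k : Qb) = 1 := by
  have := (valuation_intCast_eq_one_iff Av h.pp h.lies (k : ℤ)).mpr (by exact_mod_cast hk)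
  simpa using this

/-- `V'` is generated by any of its non-zero elements -/
theorem exists_nsmul (h : MresCore W₀ W' p Av) {T₀ T : (W'⁄Qb).Point}
    (hT₀ : T₀ ∈ mresV W' p Av h.integral) (h0 : T₀ ≠ 0) (hT : T ∈ mresV W' p Av h.integral) :
    ∃ k : ℕ, T = k • T₀ := by
  haveI : Fact p.Prime := ⟨h.pp⟩
  have hg : (⟨T₀, hT₀⟩ : mresV W' p Av h.integral) ≠ 0 := fun he => h0 (congrArg Subtype.val he)
  have hmem := mem_multiples_of_prime_card (g' := (⟨T, hT⟩ : mresV W' p Av h.integral))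
    h.card_V hg
  obtain ⟨k, hk⟩ := (AddSubmonoid.mem_multiples_iff _ _).mp hmem
  refine ⟨k, ?_⟩
  have := congrArg Subtype.val hk
  simpa using this.symm

/-- `v (z (k T)) = v (z T)` on the kernel of reduction, for `k` prime to `p` -/
theorem val_z_nsmul (h : MresCore W₀ W' p Av) {T : (W'⁄Qb).Point}
    (hT : InKerRed Av (W'⁄Qb) T) {k : ℕ} (hk : ¬ p ∣ k) :
    Av.valuation (zCoord (W'⁄Qb) (k • T)) = Av.valuation (zCoord (W'⁄Qb) T) := by
  have hk1 : Av.valuation (k : Qb) = 1 := mres_val_natCast h hk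
  by_cases hz : zCoord (W'⁄Qb) T = 0
  · have hT0 : T = 0 := (zCoord_eq_zero_iff h.integral hT).mp hz
    rw [hT0, nsmul_zero]
  · have hpos : 0 < Av.valuation (zCoord (W'⁄Qb) T) := by
      rw [zero_lt_iff, ne_eq, map_eq_zero]; exact hz
    have hlt : Av.valuation (zCoord (W'⁄Qb) T) ^ 2 < Av.valuation (zCoord (W'⁄Qb) T) :=
      pow_lt_self_of_lt_one₀ hpos (val_zCoord_lt_one h.integral hT) (by norm_num)
    have hest := val_zCoord_nsmul h.integral hT k
    have hkz : Av.valuation ((k : Qb) * zCoord (W'⁄Qb) T) = Av.valuation (zCoord (W'⁄Qb) T) := by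
      rw [map_mul, hk1, one_mul]
    have e : zCoord (W'⁄Qb) (k • T) =
        (k : Qb) * zCoord (W'⁄Qb) T + (zCoord (W'⁄Qb) (k • T) - (k : Qb) * zCoord (W'⁄Qb) T) := by
      ring
    rw [e, (Av.valuation).map_add_eq_of_lt_left (by rw [hkz]; exact lt_of_le_of_lt hest hlt), hkz]

/-- `v (x T) * v (z T) ^ 2 = 1` on the kernel of reduction -/
theorem val_x_mul_val_z_sq (h : MresCore W₀ W' p Av) {T : (W'⁄Qb).Point}
    (hT : InKerRed Av (W'⁄Qb) T) (hT0 : T ≠ 0) :
    Av.valuation (xc T) * Av.valuation (zCoord (W'⁄Qb) T) ^ 2 = 1 := by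
  rcases T with _ | ⟨x, y, hxy⟩
  · exact absurd rfl hT0
  · obtain ⟨i₁, i₂, i₃, i₄, i₆⟩ := integral_vals h.integral
    have hx1 : 1 < Av.valuation x := one_lt_val_of_not_mem hT
    obtain ⟨hy2, hxy'⟩ := KerRed.val_y_of_val_x i₁ i₂ i₃ i₄ i₆ (weq_of_equation hxy.left) hx1
    have hx0 : Av.valuation x ≠ 0 := (zero_lt_one.trans hx1).ne'
    have hy0 : Av.valuation y ≠ 0 := ((zero_lt_one.trans hx1).trans hxy').ne'
    rw [xc_some, zCoord_some, map_div₀, Valuation.map_neg, div_pow, hy2]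
    field_simp

open Classical in
/-- a finite set of non-zero points whose `x`-coordinates lie in a multiset `R` has at most
`2 * card R` elements -/
theorem count_le {W : Affine Qb} (s : Set W.Point) (hs : s.Finite) (hs0 : ∀ P ∈ s, P ≠ 0)
    (R : Multiset Qb) (hR : ∀ P ∈ s, xc P ∈ R) : s.ncard ≤ 2 * Multiset.card R := by
  rw [Set.ncard_eq_toFinset_card s hs]
  refine (Finset.card_le_mul_card_image_of_maps_to (f := xc) (t := R.toFinset) ?_ 2 ?_).trans ?_
  · intro P hP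
    exact Multiset.mem_toFinset.mpr (hR P ((Set.Finite.mem_toFinset hs).mp hP))
  · intro b _
    by_cases hne : (hs.toFinset.filter fun a => xc a = b).Nonempty
    · obtain ⟨a₀, ha₀⟩ := hne
      have ha₀' := Finset.mem_filter.mp ha₀
      refine (Finset.card_le_card (t := {a₀, -a₀}) ?_).trans Finset.card_le_two
      intro a ha
      have ha' := Finset.mem_filter.mp ha
      have h1 : a ≠ 0 := hs0 a ((Set.Finite.mem_toFinset hs).mp ha'.1)
      have h2 : a₀ ≠ 0 := hs0 a₀ ((Set.Finite.mem_toFinset hs).mp ha₀'.1)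
      rcases dpa_eq_or_eq_neg_of_xc_eq h1 h2 (ha'.2.trans ha₀'.2.symm) with he | he
      · rw [he]; exact Finset.mem_insert_self _ _
      · rw [he]; exact Finset.mem_insert_of_mem (Finset.mem_singleton_self _)
    · rw [Finset.not_nonempty_iff_eq_empty.mp hne, Finset.card_empty]
      exact Nat.zero_le _
  · exact Nat.mul_le_mul_left 2 (Multiset.toFinset_card_le R)

open Classical in
/-- **the number of non-integral roots of `preΨ_p`** (with multiplicity) is `(p - 1) / 2` -/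
theorem two_mul_card_nonint (h : MresCore W₀ W' p Av) :
    2 * Multiset.card (((W'⁄Qb).preΨ (p : ℤ)).roots.filter (· ∉ Av)) = p - 1 := by
  set f := (W'⁄Qb).preΨ (p : ℤ) with hf
  set Rn := f.roots.filter (· ∉ Av) with hRn
  set Ri := f.roots.filter (· ∈ Av) with hRi
  have hsum : Multiset.card Ri + Multiset.card Rn = (p ^ 2 - 1) / 2 := by
    rw [← Multiset.card_add, hRi, hRn, Multiset.filter_add_not,
      ← (IsAlgClosed.splits f).natDegree_eq_card_roots, hf, natDegree_preΨ _ h.p_ne,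
      if_neg (Int.not_even_iff_odd.mpr h.odd), Int.natAbs_natCast]
  haveI := h.finite_Ep
  have hfinEp : (mresEp W' p : Set (W'⁄Qb).Point).Finite := Set.toFinite _
  have hcardEp : (mresEp W' p : Set (W'⁄Qb).Point).ncard = p ^ 2 := by
    rw [← Nat.card_coe_set_eq]
    exact h.card_Ep
  have hcardV : (mresV W' p Av h.integral : Set (W'⁄Qb).Point).ncard = p := by
    rw [← Nat.card_coe_set_eq]
    exact h.card_V
  have hsub : (mresV W' p Av h.integral : Set (W'⁄Qb).Point) ⊆ mresEp W' p :=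
    mresV_le h.integral
  have hfinV : (mresV W' p Av h.integral : Set (W'⁄Qb).Point).Finite := hfinEp.subset hsub
  -- the non-integral side
  have h1 : p - 1 ≤ 2 * Multiset.card Rn := by
    have hc : ((mresV W' p Av h.integral : Set (W'⁄Qb).Point) \ {0}).ncard = p - 1 := by
      rw [Set.ncard_sdiff_singleton_of_mem (mresV W' p Av h.integral).zero_mem, hcardV]
    rw [← hc]
    refine count_le _ (hfinV.subset Set.sdiff_subset) (fun P hP => hP.2) Rn ?_
    intro P hP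
    have hPV : P ∈ mresV W' p Av h.integral := hP.1
    have hP0 : P ≠ 0 := hP.2
    refine Multiset.mem_filter.mpr ⟨(h.root_iff _).mpr ⟨P, hP0, hPV.1, rfl⟩, ?_⟩
    rcases P with _ | ⟨x, y, hxy⟩
    · exact absurd rfl hP0
    · exact hPV.2
  -- the integral side
  have h2 : p ^ 2 - p ≤ 2 * Multiset.card Ri := by
    have hc : ((mresEp W' p : Set (W'⁄Qb).Point) \
        (mresV W' p Av h.integral : Set (W'⁄Qb).Point)).ncard = p ^ 2 - p := by
      rw [Set.ncard_sdiff hsub hfinV, hcardEp, hcardV]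
    rw [← hc]
    refine count_le _ (hfinEp.subset Set.sdiff_subset) ?_ Ri ?_
    · intro P hP hP0
      exact hP.2 (hP0 ▸ (mresV W' p Av h.integral).zero_mem)
    · intro P hP
      have hPE : p • P = 0 := hP.1
      have hP0 : P ≠ 0 := fun hP0 => hP.2 (hP0 ▸ (mresV W' p Av h.integral).zero_mem)
      refine Multiset.mem_filter.mpr ⟨(h.root_iff _).mpr ⟨P, hP0, hPE, rfl⟩, ?_⟩
      rcases P with _ | ⟨x, y, hxy⟩
      · exact absurd rfl hP0
      · by_contra hx
        exact hP.2 ⟨hPE, hx⟩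
  -- arithmetic
  obtain ⟨m, hm⟩ := h.pp.odd_of_ne_two h.p2
  have hp2 : p ^ 2 = 4 * m ^ 2 + 4 * m + 1 := by rw [hm]; ring
  have e1 : (p ^ 2 - 1) / 2 = 2 * m ^ 2 + 2 * m := by
    rw [hp2]
    omega
  rw [e1] at hsum
  have e2 : p ^ 2 - p = 4 * m ^ 2 + 2 * m := by
    rw [hp2, hm]
    omega
  rw [e2] at h2
  rw [hm] at h1 ⊢
  omega

/-- **(E2)**: `v (z T) ^ (p - 1) = v p` for `T ∈ V' ∖ 0` -/
theorem e2 (h : MresCore W₀ W' p Av) {T₀ : (W'⁄Qb).Point} (hT₀ : T₀ ≠ 0) (hp₀ : p • T₀ = 0)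
    (hk₀ : InKerRed Av (W'⁄Qb) T₀) :
    Av.valuation (zCoord (W'⁄Qb) T₀) ^ (p - 1) = Av.valuation (p : Qb) := by
  classical
  set ρ := Av.valuation (xc T₀) with hρ
  set ζ := Av.valuation (zCoord (W'⁄Qb) T₀) with hζ
  have hV₀ : T₀ ∈ mresV W' p Av h.integral := ⟨hp₀, hk₀⟩
  have hρζ : ρ * ζ ^ 2 = 1 := h.val_x_mul_val_z_sq hk₀ hT₀
  -- all non-integral roots have valuation `ρ`
  have hall : ∀ a ∈ (((W'⁄Qb).preΨ (p : ℤ)).roots.filter (· ∉ Av)).map Av.valuation, a = ρ := by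
    intro a ha
    obtain ⟨r, hr, rfl⟩ := Multiset.mem_map.mp ha
    obtain ⟨hroot, hrA⟩ := Multiset.mem_filter.mp hr
    obtain ⟨P, hP0, hpP, rfl⟩ := (h.root_iff r).mp hroot
    have hPk : InKerRed Av (W'⁄Qb) P := by
      rcases P with _ | ⟨x, y, hxy⟩
      · exact inKerRed_zero
      · exact hrA
    obtain ⟨k, hk⟩ := h.exists_nsmul hV₀ hT₀ (⟨hpP, hPk⟩ : P ∈ mresV W' p Av h.integral)
    have hkp : ¬ p ∣ k := by
      rintro ⟨j, rfl⟩
      apply hP0
      rw [hk, mul_comm, mul_smul, hp₀, nsmul_zero]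
    have hz : Av.valuation (zCoord (W'⁄Qb) P) = ζ := by
      rw [hk]
      exact h.val_z_nsmul hk₀ hkp
    have h1 := h.val_x_mul_val_z_sq hPk hP0
    rw [hz] at h1
    have hζ0 : ζ ^ 2 ≠ 0 := by
      intro h0
      rw [h0, mul_zero] at hρζ
      exact zero_ne_one hρζ
    exact mul_right_cancel₀ hζ0 (h1.trans hρζ.symm)
  have hstar := h.star
  rw [Multiset.eq_replicate_of_mem hall, Multiset.prod_replicate, Multiset.card_map] at hstar
  have hcard := h.two_mul_card_nonint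
  rw [← hcard, pow_mul]
  have e : (ζ ^ 2) ^ Multiset.card (((W'⁄Qb).preΨ (p : ℤ)).roots.filter (· ∉ Av)) *
      ρ ^ Multiset.card (((W'⁄Qb).preΨ (p : ℤ)).roots.filter (· ∉ Av)) = 1 := by
    rw [← mul_pow, mul_comm, hρζ, one_pow]
  have hρ0 : ρ ^ Multiset.card (((W'⁄Qb).preΨ (p : ℤ)).roots.filter (· ∉ Av)) ≠ 0 := by
    intro h0
    rw [h0, mul_zero] at hstar
    exact zero_ne_one hstar
  exact mul_right_cancel₀ hρ0 (e.trans hstar.symm)

end MresCore

end Fermat.Agent.MR
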