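import Mathlib
import Fermat.Prelude.Def_FLTPrelim_Ramification
import Fermat.Agent.S05.Inertia

/-!
# MR / E-side, leaf (e1), file ShapeCyc: `1 - ζ_p` at a valuation subring over `p`

`A` a valuation subring of a field `K` over the odd prime `p`, `ζ ≠ 1`, `ζ ^ p = 1`.

* `mres_cyc_sub_lt` : `v (ζ - 1) < 1`.
* `mres_cyc_geom` : `v (∑_{i<k} ζ^i - k) < 1`.
* `mres_cyc_val` : `v (1 - ζ) ^ (p - 1) = v p`.
* `mres_cyc_ratio` : `v ((1 - ζ ^ e) - e * (1 - ζ)) < v (1 - ζ)`.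
-/

set_option autoImplicit false

namespace Fermat.Agent.MR

open Finset Fermat.Agent.S05

variable {K : Type*} [Field K] (A : ValuationSubring K) {p : ℕ}

section

variable {ζ : K}

include A in
lemma mres_cyc_val_zeta (hp : p.Prime) (hζ : ζ ^ p = 1) : A.valuation ζ = 1 := by
  have h : A.valuation ζ ^ p = 1 ^ p := by rw [← map_pow, hζ, map_one, one_pow]
  exact (pow_left_inj₀ zero_le zero_le hp.ne_zero).mp h

lemma mres_cyc_zeta_mem (hp : p.Prime) (hζ : ζ ^ p = 1) : ζ ∈ A :=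
  (A.valuation_le_one_iff ζ).mp (mres_cyc_val_zeta A hp hζ).le

lemma mres_cyc_geom_mem (hp : p.Prime) (hζ : ζ ^ p = 1) (k : ℕ) :
    (∑ i ∈ range k, ζ ^ i) ∈ A :=
  sum_mem fun i _ => pow_mem (mres_cyc_zeta_mem A hp hζ) i

/-- `ζ ≡ 1` modulo the maximal ideal -/
theorem mres_cyc_sub_lt (hp : p.Prime) (hp2 : p ≠ 2) (hA : A.LiesOverPrime p)
    (hζ : ζ ^ p = 1) : A.valuation (ζ - 1) < 1 := by
  have hpv : A.valuation (p : K) < 1 := (ValuationSubring.mem_nonunits_iff (A := A)).mp hA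
  have hζA : ζ ∈ A := mres_cyc_zeta_mem A hp hζ
  haveI : Fact p.Prime := ⟨hp⟩
  obtain ⟨r, hr⟩ := exists_add_pow_prime_eq hp (⟨ζ, hζA⟩ : A) (-1)
  have hodd : Odd p := hp.odd_of_ne_two hp2
  have hr' : (ζ - 1) ^ p = (p : K) * ζ * (-1) * (r : K) := by
    have := congrArg (fun a : A => (a : K)) hr
    push_cast at this
    rw [hζ, hodd.neg_one_pow] at this
    rw [sub_eq_add_neg, this]
    ring
  have hlt : A.valuation ((ζ - 1) ^ p) < 1 := by
    rw [hr', map_mul, map_mul, map_mul, Valuation.map_neg, map_one, mul_one,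
      mres_cyc_val_zeta A hp hζ, mul_one]
    calc A.valuation (p : K) * A.valuation (r : K) ≤ A.valuation (p : K) * 1 := by
          gcongr
          exact (A.valuation_le_one_iff _).mpr r.2
      _ = A.valuation (p : K) := mul_one _
      _ < 1 := hpv
  rw [map_pow] at hlt
  by_contra hge
  rw [not_lt] at hge
  exact absurd hlt (not_lt.mpr (one_le_pow₀ hge))

/-- `ζ ^ i ≡ 1` modulo the maximal ideal -/
theorem mres_cyc_pow_sub_lt (hp : p.Prime) (hp2 : p ≠ 2) (hA : A.LiesOverPrime p)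
    (hζ : ζ ^ p = 1) (i : ℕ) : A.valuation (ζ ^ i - 1) < 1 := by
  rw [← geom_sum_mul, map_mul]
  calc A.valuation (∑ j ∈ range i, ζ ^ j) * A.valuation (ζ - 1)
      ≤ 1 * A.valuation (ζ - 1) := by
        gcongr
        exact (A.valuation_le_one_iff _).mpr (mres_cyc_geom_mem A hp hζ i)
    _ = A.valuation (ζ - 1) := one_mul _
    _ < 1 := mres_cyc_sub_lt A hp hp2 hA hζ

/-- `1 + ζ + … + ζ^(k-1) ≡ k` modulo the maximal ideal -/
theorem mres_cyc_geom (hp : p.Prime) (hp2 : p ≠ 2) (hA : A.LiesOverPrime p)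
    (hζ : ζ ^ p = 1) (k : ℕ) : A.valuation ((∑ i ∈ range k, ζ ^ i) - (k : K)) < 1 := by
  have e : (∑ i ∈ range k, ζ ^ i) - (k : K) = ∑ i ∈ range k, (ζ ^ i - 1) := by
    rw [sum_sub_distrib, sum_const, card_range, nsmul_eq_mul, mul_one]
  rw [e]
  exact (A.valuation).map_sum_lt (by norm_num) fun i _ => mres_cyc_pow_sub_lt A hp hp2 hA hζ i

/-- the geometric sums of length prime to `p` are units -/
theorem mres_cyc_geom_unit (hp : p.Prime) (hp2 : p ≠ 2) (hA : A.LiesOverPrime p)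
    (hζ : ζ ^ p = 1) {k : ℕ} (hk : ¬ p ∣ k) : A.valuation (∑ i ∈ range k, ζ ^ i) = 1 := by
  have hk1 : A.valuation (k : K) = 1 := by
    have := (valuation_intCast_eq_one_iff A hp hA (k : ℤ)).mpr (by exact_mod_cast hk)
    simpa using this
  have e : (∑ i ∈ range k, ζ ^ i) = (k : K) + ((∑ i ∈ range k, ζ ^ i) - (k : K)) := by ring
  rw [e, (A.valuation).map_add_eq_of_lt_left (by rw [hk1]; exact mres_cyc_geom A hp hp2 hA hζ k),
    hk1]

/-- `v (1 - ζ ^ k) = v (1 - ζ)` for `k` prime to `p` -/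
theorem mres_cyc_val_one_sub_pow (hp : p.Prime) (hp2 : p ≠ 2) (hA : A.LiesOverPrime p)
    (hζ : ζ ^ p = 1) {k : ℕ} (hk : ¬ p ∣ k) :
    A.valuation (1 - ζ ^ k) = A.valuation (1 - ζ) := by
  have e : 1 - ζ ^ k = (∑ i ∈ range k, ζ ^ i) * (1 - ζ) := by
    have := geom_sum_mul ζ k
    linear_combination this
  rw [e, map_mul, mres_cyc_geom_unit A hp hp2 hA hζ hk, one_mul]

/-- **`v (1 - ζ) ^ (p - 1) = v p`** -/
theorem mres_cyc_val (hp : p.Prime) (hp2 : p ≠ 2) (hA : A.LiesOverPrime p) (hζ1 : ζ ≠ 1)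
    (hζ : ζ ^ p = 1) : A.valuation (1 - ζ) ^ (p - 1) = A.valuation (p : K) := by
  have hprim : IsPrimitiveRoot ζ (p - 1 + 1) := by
    rw [Nat.sub_add_cancel hp.one_le]
    exact isPrimitiveRoot_of_mem_nthRootsFinset hp
      ((Polynomial.mem_nthRootsFinset hp.pos 1).mpr hζ) hζ1
  have h := hprim.prod_one_sub_pow_eq_order
  have hcast : ((p - 1 : ℕ) : K) + 1 = (p : K) := by
    have := Nat.sub_add_cancel hp.one_le
    exact_mod_cast congrArg (fun n : ℕ => (n : K)) this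
  rw [hcast] at h
  rw [← h, map_prod]
  have : ∀ k ∈ range (p - 1), A.valuation (1 - ζ ^ (k + 1)) = A.valuation (1 - ζ) := by
    intro k hk
    apply mres_cyc_val_one_sub_pow A hp hp2 hA hζ
    intro hdvd
    have hlt : k + 1 < p := by
      have := mem_range.mp hk
      omega
    exact absurd (Nat.le_of_dvd (by omega) hdvd) (by omega)
  rw [prod_congr rfl this, prod_const, card_range]

/-- `1 - ζ ^ e ≡ e (1 - ζ)` to first order -/
theorem mres_cyc_ratio (hp : p.Prime) (hp2 : p ≠ 2) (hA : A.LiesOverPrime p) (hζ1 : ζ ≠ 1)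
    (hζ : ζ ^ p = 1) (e : ℕ) :
    A.valuation ((1 - ζ ^ e) - (e : K) * (1 - ζ)) < A.valuation (1 - ζ) := by
  have h0 : A.valuation (1 - ζ) ≠ 0 := by
    rw [Ne, map_eq_zero, sub_eq_zero]
    exact fun h => hζ1 h.symm
  have e1 : (1 - ζ ^ e) - (e : K) * (1 - ζ) = ((∑ i ∈ range e, ζ ^ i) - (e : K)) * (1 - ζ) := by
    have := geom_sum_mul ζ e
    linear_combination this
  rw [e1, map_mul]
  calc A.valuation ((∑ i ∈ range e, ζ ^ i) - (e : K)) * A.valuation (1 - ζ)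
      < 1 * A.valuation (1 - ζ) :=
        mul_lt_mul_of_pos_right (mres_cyc_geom A hp hp2 hA hζ e) (zero_lt_iff.mpr h0)
    _ = _ := one_mul _

end

end Fermat.Agent.MR
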