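import Mathlib
import Fermat.Agent.S05.InertiaDefs
import Fermat.Agent.MR.ESide.ShapeCyc
import Fermat.Agent.MR.ESide.ShapeCount

/-!
# MR / E-side, leaf (e1), file ShapeEps: inertia acts on `V'` through the cyclotomic character

Setting of `ShapeCore` (`MresCore W₀ W' p Av`), `E = W'⁄Qbar`, `V' = E[p] ∩ ker(red)`.
For `T ∈ V' ∖ 0` the local parameter `u = z T` has `v u = v (1 - ζ)` by (E2); `σ T = k T` gives
`σ u ≡ k u` to second order, while `σ (1 - ζ) = 1 - ζ ^ e ≡ e (1 - ζ)`; since `σ` is trivial on the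
residue field, `k ≡ e (mod p)`.

* `mres_zCoord_smul` : `z (σ • P) = σ (z P)`;
* `MresCore.smul_mem_V` : `V'` is stable under valuation-preserving automorphisms;
* `MresCore.eps` : **(Eps)** `σ ζ = ζ ^ e → σ • T = e • T` on `V'`.
-/

set_option autoImplicit false

namespace Fermat.Agent.MR

open WeierstrassCurve WeierstrassCurve.Affine WeierstrassCurve.Affine.Point
open Fermat.Agent.S05 Fermat.Agent.S13

local notation "Qb" => AlgebraicClosure ℚ

lemma mres_zCoord_smul {W' : Affine ℚ} (σ : Qb ≃ₐ[ℚ] Qb) (P : (W'⁄Qb).Point) :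
    zCoord (W'⁄Qb) (σ • P) = σ (zCoord (W'⁄Qb) P) := by
  rcases P with _ | ⟨x, y, h⟩
  · change zCoord (W'⁄Qb) (0 : (W'⁄Qb).Point) = σ (zCoord (W'⁄Qb) (0 : (W'⁄Qb).Point))
    simp
  · show -(σ x) / (σ y) = σ (-x / y)
    rw [map_div₀, map_neg]

lemma mres_inKerRed_smul {W' : Affine ℚ} {Av : ValuationSubring Qb} (σ : Qb ≃ₐ[ℚ] Qb)
    (hσ : ∀ x, Av.valuation (σ x) = Av.valuation x) {P : (W'⁄Qb).Point}
    (hP : InKerRed Av (W'⁄Qb) P) : InKerRed Av (W'⁄Qb) (σ • P) := by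
  rcases P with _ | ⟨x, y, h⟩
  · exact hP
  · show σ x ∉ Av
    intro hmem
    apply hP
    show x ∈ Av
    rw [← Av.valuation_le_one_iff] at hmem ⊢
    rwa [hσ] at hmem

namespace MresCore

variable {W₀ : WeierstrassCurve ℤ} {W' : Affine ℚ} {p : ℕ} {Av : ValuationSubring Qb}

lemma smul_mem_V (h : MresCore W₀ W' p Av) (σ : Qb ≃ₐ[ℚ] Qb)
    (hσ : ∀ x, Av.valuation (σ x) = Av.valuation x) {T : (W'⁄Qb).Point}
    (hT : T ∈ mresV W' p Av h.integral) : σ • T ∈ mresV W' p Av h.integral := by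
  refine ⟨?_, mres_inKerRed_smul σ hσ hT.2⟩
  rw [smul_comm, hT.1]
  exact _root_.smul_zero (A := (W'⁄Qb).Point) σ

/-- **(Eps)**: inertia acts on `V'` through the mod `p` cyclotomic character. -/
theorem eps (h : MresCore W₀ W' p Av) (σ : Qb ≃ₐ[ℚ] Qb) (hσ : IsInertiaLike Av.valuation σ)
    (ζ : Qb) (e : ℕ) (hζ1 : ζ ≠ 1) (hζ : ζ ^ p = 1) (hσζ : σ ζ = ζ ^ e)
    (T : (W'⁄Qb).Point) (hpT : p • T = 0) (hT : InKerRed Av (W'⁄Qb) T) : σ • T = e • T := by
  by_cases hT0 : T = 0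
  · rw [hT0]
    exact (_root_.smul_zero (A := (W'⁄Qb).Point) σ).trans (nsmul_zero e).symm
  have hTV : T ∈ mresV W' p Av h.integral := ⟨hpT, hT⟩
  obtain ⟨k, hk⟩ := h.exists_nsmul hTV hT0 (h.smul_mem_V σ hσ.val_eq hTV)
  -- notation
  set v := Av.valuation with hv
  set u := zCoord (W'⁄Qb) T with hu
  set l : Qb := 1 - ζ with hl
  have hl0 : l ≠ 0 := by
    rw [hl, Ne, sub_eq_zero]
    exact fun h' => hζ1 h'.symm
  have hvl0 : v l ≠ 0 := (map_ne_zero v).mpr hl0
  have hvl : v l ^ (p - 1) = v (p : Qb) := mres_cyc_val Av h.pp h.p2 h.lies hζ1 hζ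
  have hvu : v u ^ (p - 1) = v (p : Qb) := h.e2 hT0 hpT hT
  have hp1 : p - 1 ≠ 0 := by
    have := h.pp.two_le
    omega
  have hul : v u = v l := (pow_left_inj₀ zero_le zero_le hp1).mp (hvu.trans hvl.symm)
  have hl1 : v l < 1 := by
    rw [← hul]
    exact val_zCoord_lt_one h.integral hT
  -- the second order estimate
  have hest : v (σ u - (k : Qb) * u) ≤ v l ^ 2 := by
    have := val_zCoord_nsmul h.integral hT k
    rw [← hk, mres_zCoord_smul] at this
    rw [← hul]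
    exact this
  have hlt : v (σ u - (k : Qb) * u) < v l := by
    refine lt_of_le_of_lt hest ?_
    exact pow_lt_self_of_lt_one₀ (zero_lt_iff.mpr hvl0) hl1 (by norm_num)
  -- the unit `w = u / l`
  set w : Qb := u / l with hw
  have hvw : v w = 1 := by
    rw [hw, map_div₀, hul, div_self hvl0]
  have huw : u = w * l := by
    rw [hw, div_mul_cancel₀ _ hl0]
  have hσl : σ l = 1 - ζ ^ e := by
    rw [hl, map_sub, map_one, hσζ]
  have hσu : σ u = σ w * (1 - ζ ^ e) := by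
    rw [huw, map_mul, hσl]
  have h1 : v ((σ w - w) * (1 - ζ ^ e)) < v l := by
    have ha : v (σ w - w) < 1 := hσ.sub_lt w hvw.le
    have hb : v (1 - ζ ^ e) ≤ v l := by
      have e1 : 1 - ζ ^ e = (∑ i ∈ Finset.range e, ζ ^ i) * (1 - ζ) := by
        have := geom_sum_mul ζ e
        linear_combination this
      rw [e1, map_mul]
      calc v (∑ i ∈ Finset.range e, ζ ^ i) * v (1 - ζ) ≤ 1 * v (1 - ζ) := by
            gcongr
            exact (Av.valuation_le_one_iff _).mpr (mres_cyc_geom_mem Av h.pp hζ e)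
        _ = v l := one_mul _
    rw [map_mul]
    by_cases hz : v (1 - ζ ^ e) = 0
    · rw [hz, mul_zero]
      exact zero_lt_iff.mpr hvl0
    · calc v (σ w - w) * v (1 - ζ ^ e) < 1 * v (1 - ζ ^ e) :=
            mul_lt_mul_of_pos_right ha (zero_lt_iff.mpr hz)
        _ = v (1 - ζ ^ e) := one_mul _
        _ ≤ v l := hb
  have h2 : v (w * ((1 - ζ ^ e) - (e : Qb) * l)) < v l := by
    rw [map_mul, hvw, one_mul]
    exact mres_cyc_ratio Av h.pp h.p2 h.lies hζ1 hζ e
  have h3 : v (w * l * ((e : Qb) - (k : Qb))) < v l := by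
    have e3 : w * l * ((e : Qb) - (k : Qb)) =
        (σ u - (k : Qb) * u) - (σ w - w) * (1 - ζ ^ e) - w * ((1 - ζ ^ e) - (e : Qb) * l) := by
      rw [hσu, huw]
      ring
    rw [e3]
    exact Valuation.map_sub_lt _ (Valuation.map_sub_lt _ hlt h1) h2
  have h4 : v ((e : Qb) - (k : Qb)) < 1 := by
    rw [map_mul, map_mul, hvw, one_mul] at h3
    by_contra hge
    rw [not_lt] at hge
    apply absurd h3
    rw [not_lt]
    calc v l = v l * 1 := (mul_one _).symm
      _ ≤ v l * v ((e : Qb) - (k : Qb)) := by gcongr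
  -- conclusion: `p ∣ e - k`
  have hdvd : (p : ℤ) ∣ (e : ℤ) - (k : ℤ) := by
    by_contra hnd
    have := (valuation_intCast_eq_one_iff Av h.pp h.lies ((e : ℤ) - (k : ℤ))).mpr hnd
    push_cast at this
    rw [this] at h4
    exact lt_irrefl _ h4
  obtain ⟨m, hm⟩ := hdvd
  rw [hk]
  have e5 : ((e : ℤ)) • T = ((k : ℤ)) • T := by
    have : (e : ℤ) = (k : ℤ) + (p : ℤ) * m := by linarith
    have hp' : (p : ℤ) • T = 0 := by rw [natCast_zsmul]; exact hpT
    rw [this, add_zsmul, mul_comm, mul_zsmul, hp']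
    rw [zsmul_zero, add_zero]
  rw [natCast_zsmul, natCast_zsmul] at e5
  exact e5.symm

end MresCore

end Fermat.Agent.MR
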