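import Mathlib
import Fermat.Agent.S13.FreyP
import Fermat.Agent.MR.ESide.ShapeCount

/-!
# MR / E-side, leaf (e1), file ShapeFrey: the shape at `p` for the Legendre models and for the
Frey curve

* `mres_core_legendre` : `legendreCurve A B` at `p ∣ A B`, `p ∤ B - A` is an instance of `MresCore`.
* `mres_val_zCoord_vcPoint` : a change of variables `(u, r, s, t)` with `u` a unit and `r, s, t`
  integral preserves `v (z Q)` on the kernel of reduction.
* `mres_frey_shape` : **(e1) for the Frey curve at `p ∣ abc`** in the literal form of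
  `MreShapeSpec` (block `mre`, `MR/E/Spec.lean`):
  (a) `σ x - x ∈ ker red` for `σ` in the inertia group, (b) some `x ∈ E[p]` is outside `ker red`,
  (c) `v (z x) ^ (p - 1) = v p` for `0 ≠ x ∈ E[p] ∩ ker red`.
-/

set_option autoImplicit false

namespace Fermat.Agent.MR

open WeierstrassCurve WeierstrassCurve.Affine WeierstrassCurve.Affine.Point
open Fermat.Agent.S05 Fermat.Agent.S13

local notation "Qb" => AlgebraicClosure ℚ

/-! ### the Legendre models -/

/-- the integral Legendre model -/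
def mresLegInt (A B : ℤ) : WeierstrassCurve ℤ := ⟨0, B - A, 0, -(A * B), 0⟩

theorem mres_core_legendre (A B : ℤ) {p : ℕ} (hp : p.Prime) (hp2 : p ≠ 2)
    (Av : ValuationSubring Qb) (hAv : Av.LiesOverPrime p) (ha₂ : ¬ (p : ℤ) ∣ B - A)
    (ha₄ : (p : ℤ) ∣ A * B) (hA : A ≠ 0) (hB : B ≠ 0) (hAB : A + B ≠ 0) :
    MresCore (mresLegInt A B) (legendreCurve A B) p Av where
  map := by
    simp only [mresLegInt, legendreCurve, WeierstrassCurve.map]
    ext <;> simp
  a₁ := rfl
  a₃ := rfl
  a₆ := rfl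
  a₂ := ha₂
  a₄ := by
    show (p : ℤ) ∣ -(A * B)
    exact (dvd_neg).mpr ha₄
  disc := by
    rw [legendreCurve_Δ]
    have h1 : ((A : ℚ) * B) ≠ 0 := by exact_mod_cast mul_ne_zero hA hB
    have h2 : ((A : ℚ) + B) ≠ 0 := by exact_mod_cast hAB
    positivity
  pp := hp
  p2 := hp2
  lies := hAv

/-! ### transfer along a change of variables -/

section transfer

variable {K : Type*} [Field K] [DecidableEq K] (A : ValuationSubring K)

/-- a change of variables with `u` a unit and `r, s, t` integral preserves the size of the local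
parameter `z = -x / y` on the kernel of reduction (of the integral model `W'`). -/
theorem mres_val_zCoord_vcPoint {W W' : WeierstrassCurve K} (C : VariableChange K)
    (h : W' = C • W) (hu : A.valuation (C.u : K) = 1) (hr : C.r ∈ A) (hs : C.s ∈ A)
    (ht : C.t ∈ A) (hI : IsIntegralAt A W'.toAffine) (Q : W'.toAffine.Point)
    (hQ : InKerRed A W'.toAffine Q) :
    A.valuation (zCoord W.toAffine (vcPoint C h Q)) = A.valuation (zCoord W'.toAffine Q) := by
  rcases Q with _ | ⟨x, y, hxy⟩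
  · rfl
  · obtain ⟨i₁, i₂, i₃, i₄, i₆⟩ := integral_vals hI
    have hx1 : 1 < A.valuation x := one_lt_val_of_not_mem hQ
    obtain ⟨-, hxy'⟩ := KerRed.val_y_of_val_x i₁ i₂ i₃ i₄ i₆ (weq_of_equation hxy.left) hx1
    have hvr : A.valuation C.r ≤ 1 := (A.valuation_le_one_iff _).mpr hr
    have hvs : A.valuation C.s ≤ 1 := (A.valuation_le_one_iff _).mpr hs
    have hvt : A.valuation C.t ≤ 1 := (A.valuation_le_one_iff _).mpr ht
    rw [vcPoint_some, zCoord_some, zCoord_some, map_div₀, map_div₀, Valuation.map_neg,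
      Valuation.map_neg]
    have hX : A.valuation (vcX C x) = A.valuation x := by
      simp only [vcX]
      have h1 : A.valuation ((C.u : K) ^ 2 * x) = A.valuation x := by
        rw [map_mul, map_pow, hu, one_pow, one_mul]
      rw [(A.valuation).map_add_eq_of_lt_left (by rw [h1]; exact lt_of_le_of_lt hvr hx1), h1]
    have hY : A.valuation (vcY C x y) = A.valuation y := by
      simp only [vcY]
      have h1 : A.valuation ((C.u : K) ^ 3 * y) = A.valuation y := by
        rw [map_mul, map_pow, hu, one_pow, one_mul]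
      have h2 : A.valuation ((C.u : K) ^ 2 * C.s * x) < A.valuation y := by
        rw [map_mul, map_mul, map_pow, hu, one_pow, one_mul]
        calc A.valuation C.s * A.valuation x ≤ 1 * A.valuation x := by gcongr
          _ = A.valuation x := one_mul _
          _ < A.valuation y := hxy'
      have h3 : A.valuation C.t < A.valuation y := lt_of_le_of_lt hvt (hx1.trans hxy')
      rw [add_assoc, (A.valuation).map_add_eq_of_lt_left
        (by rw [h1]; exact (A.valuation).map_add_lt h2 h3), h1]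
    rw [hX, hY]

end transfer

/-- the shape `(b) ∧ (c)` of a Weierstrass curve over `ℚ` at a place `Av` of `Qbar`. -/
def MresBC (E : WeierstrassCurve ℚ) (p : ℕ) (Av : ValuationSubring Qb) : Prop :=
  (∃ P : (E⁄Qb).Point, p • P = 0 ∧ ¬ InKerRed Av (E⁄Qb) P) ∧
    ∀ T : (E⁄Qb).Point, T ≠ 0 → p • T = 0 → InKerRed Av (E⁄Qb) T →
      Av.valuation (zCoord (E⁄Qb) T) ^ (p - 1) = Av.valuation (p : Qb)

theorem MresCore.bc {W₀ : WeierstrassCurve ℤ} {W' : Affine ℚ} {p : ℕ}
    {Av : ValuationSubring Qb} (h : MresCore W₀ W' p Av) : MresBC W' p Av := by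
  refine ⟨?_, fun T hT0 hpT hk => h.e2 hT0 hpT hk⟩
  obtain ⟨P, hP0, hpP, hx⟩ := h.exists_node
  refine ⟨P, hpP, ?_⟩
  rcases P with _ | ⟨x, y, hxy⟩
  · exact absurd rfl hP0
  · exact fun hk => hk ((Av.valuation_le_one_iff _).mp hx.le)

/-- transfer of the shape along a change of variables over `ℚ` -/
theorem MresBC.transfer {E E' : WeierstrassCurve ℚ} (C₀ : VariableChange ℚ) (h₀ : E' = C₀ • E)
    {p : ℕ} (Av : ValuationSubring Qb) (hu : Av.valuation (algebraMap ℚ Qb (C₀.u : ℚ)) = 1)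
    (hr : algebraMap ℚ Qb C₀.r ∈ Av) (hs : algebraMap ℚ Qb C₀.s ∈ Av)
    (ht : algebraMap ℚ Qb C₀.t ∈ Av) (hI : IsIntegralAt Av (E'⁄Qb)) (H : MresBC E' p Av) :
    MresBC E p Av := by
  have hu' : Av.valuation ((C₀.baseChange Qb).u : Qb) = 1 := by
    simpa [VariableChange.baseChange, VariableChange.map] using hu
  have hr' : (C₀.baseChange Qb).r ∈ Av := by
    simpa [VariableChange.baseChange, VariableChange.map] using hr
  have hs' : (C₀.baseChange Qb).s ∈ Av := by
    simpa [VariableChange.baseChange, VariableChange.map] using hs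
  have ht' : (C₀.baseChange Qb).t ∈ Av := by
    simpa [VariableChange.baseChange, VariableChange.map] using ht
  obtain ⟨⟨P', hpP', hP'⟩, H2⟩ := H
  refine ⟨⟨vcPointBC C₀ h₀ Qb P', ?_, ?_⟩, ?_⟩
  · rw [← map_nsmul, hpP', _root_.map_zero]
  · intro hk
    apply hP'
    exact (freyP_inKerRed_vcPoint_iff Av (C₀.baseChange Qb) (baseChange_eq_smul C₀ h₀ Qb)
      hu' hr' P').mp hk
  · intro T hT0 hpT hk
    set T' := (vcPointBC C₀ h₀ Qb).symm T with hT'
    have hTT' : vcPointBC C₀ h₀ Qb T' = T := AddEquiv.apply_symm_apply _ _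
    have hT'0 : T' ≠ 0 := by
      intro h0
      apply hT0
      rw [← hTT', h0, _root_.map_zero]
    have hpT' : p • T' = 0 := by
      rw [hT', ← map_nsmul, hpT, _root_.map_zero]
    have hk' : InKerRed Av (E'⁄Qb) T' := by
      refine (freyP_inKerRed_vcPoint_iff Av (C₀.baseChange Qb) (baseChange_eq_smul C₀ h₀ Qb)
        hu' hr' T').mp ?_
      show InKerRed Av (E⁄Qb) (vcPointBC C₀ h₀ Qb T')
      rw [hTT']
      exact hk
    have hz := mres_val_zCoord_vcPoint Av (C₀.baseChange Qb) (baseChange_eq_smul C₀ h₀ Qb)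
      hu' hr' hs' ht' hI T' hk'
    have hz' : Av.valuation (zCoord (E⁄Qb) T) = Av.valuation (zCoord (E'⁄Qb) T') := by
      rw [← hTT']
      exact hz
    rw [hz']
    exact H2 T' hT'0 hpT' hk'

/-! ### the Frey curve -/

lemma mres_legendre_integral (A B : ℤ) (Av : ValuationSubring Qb) :
    IsIntegralAt Av ((legendreCurve A B)⁄Qb) := by
  have hmap : legendreCurve A B = (mresLegInt A B).map (Int.castRingHom ℚ) := by
    simp only [mresLegInt, legendreCurve, WeierstrassCurve.map]
    ext <;> simp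
  rw [pt_baseChange_eq (mresLegInt A B) (legendreCurve A B) hmap]
  refine ⟨?_, ?_, ?_, ?_, ?_⟩ <;> exact intCast_mem Av _

/-- **(b) ∧ (c) for the Frey curve at `p ∣ abc`** -/
theorem mres_frey_bc (P : FreyPackage) (Av : ValuationSubring Qb) (hAv : Av.LiesOverPrime P.p)
    (hp : (P.p : ℤ) ∣ P.a * P.b * P.c) : MresBC P.freyCurve P.p Av := by
  have hq : P.p.Prime := P.pp
  have hq2 : P.p ≠ 2 := by have := P.hp5; omega
  have h2 := legunram_val_two hq hq2 Av hAv
  have hqZ : Prime (P.p : ℤ) := Nat.prime_iff_prime_int.1 hq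
  have hFLT : P.a ^ P.p + P.b ^ P.p = P.c ^ P.p := P.hFLT
  have hpa0 : P.a ^ P.p ≠ 0 := pow_ne_zero _ P.ha0
  have hpb0 : P.b ^ P.p ≠ 0 := pow_ne_zero _ P.hb0
  have hpc0 : P.c ^ P.p ≠ 0 := pow_ne_zero _ P.hc0
  have h₀ : legendreCurve ((P.a ^ P.p : ℤ) : ℚ) ((P.b ^ P.p : ℤ) : ℚ) =
      freyChange • P.freyCurve := by
    have := legendreCurve_eq_smul P
    push_cast
    exact this
  have hu1 : Av.valuation (algebraMap ℚ Qb (freyChange.u : ℚ)) = 1 := by
    have : algebraMap ℚ Qb (freyChange.u : ℚ) = (2 : Qb)⁻¹ := by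
      simp [freyChange]
    rw [this, map_inv₀, h2, inv_one]
  have hr1 : algebraMap ℚ Qb freyChange.r ∈ Av := by
    have : algebraMap ℚ Qb freyChange.r = 0 := by simp [freyChange]
    rw [this]; exact zero_mem _
  have hs1 : algebraMap ℚ Qb freyChange.s ∈ Av := by
    have : algebraMap ℚ Qb freyChange.s = -(2 : Qb)⁻¹ := by
      simp [freyChange]
      ring
    rw [this]
    refine neg_mem ?_
    rw [← Av.valuation_le_one_iff, map_inv₀, h2, inv_one]
  have ht1 : algebraMap ℚ Qb freyChange.t ∈ Av := by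
    have : algebraMap ℚ Qb freyChange.t = 0 := by simp [freyChange]
    rw [this]; exact zero_mem _
  refine MresBC.transfer freyChange h₀ Av hu1 hr1 hs1 ht1
    (mres_legendre_integral _ _ Av) ?_
  by_cases hab : (P.p : ℤ) ∣ P.a * P.b
  · -- node at the origin of the Legendre model
    refine (mres_core_legendre (P.a ^ P.p) (P.b ^ P.p) hq hq2 Av hAv ?_ ?_ hpa0 hpb0
      (by rw [hFLT]; exact hpc0)).bc
    · intro hdvd
      rcases hqZ.dvd_or_dvd hab with ha | hb
      · have hb : (P.p : ℤ) ∣ P.b ^ P.p := by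
          have := dvd_add hdvd (dvd_pow ha P.hp0)
          simpa using this
        exact freyP_not_dvd_both P.hgcdab hq ha (hqZ.dvd_of_dvd_pow hb)
      · have ha : (P.p : ℤ) ∣ P.a ^ P.p := by
          have := dvd_sub (dvd_pow hb P.hp0) hdvd
          simpa using this
        exact freyP_not_dvd_both P.hgcdab hq (hqZ.dvd_of_dvd_pow ha) hb
    · rw [← mul_pow]
      exact dvd_pow hab P.hp0
  · -- `p ∣ c`: translate the colliding `2`-torsion point to the origin
    have hc : (P.p : ℤ) ∣ P.c := by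
      rcases hqZ.dvd_or_dvd hp with h | h
      · exact absurd h hab
      · exact h
    have hna : ¬ (P.p : ℤ) ∣ P.a := fun ha => hab (dvd_mul_of_dvd_left ha _)
    have h₁ : legendreCurve ((-(P.a ^ P.p) : ℤ) : ℚ) ((P.c ^ P.p : ℤ) : ℚ) =
        legendreTranslate ((P.a ^ P.p : ℤ) : ℚ) •
          legendreCurve ((P.a ^ P.p : ℤ) : ℚ) ((P.b ^ P.p : ℤ) : ℚ) := by
      have := legendreCurve_translate ((P.a ^ P.p : ℤ) : ℚ) ((P.b ^ P.p : ℤ) : ℚ)
      have e1 : ((-(P.a ^ P.p) : ℤ) : ℚ) = -((P.a ^ P.p : ℤ) : ℚ) := by push_cast; ring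
      have e2 : ((P.c ^ P.p : ℤ) : ℚ) = ((P.a ^ P.p : ℤ) : ℚ) + ((P.b ^ P.p : ℤ) : ℚ) := by
        rw [← hFLT]; push_cast; ring
      rw [e1, e2]
      exact this
    have hu2 : Av.valuation (algebraMap ℚ Qb
        ((legendreTranslate ((P.a ^ P.p : ℤ) : ℚ)).u : ℚ)) = 1 := by
      simp [legendreTranslate]
    have hr2 : algebraMap ℚ Qb (legendreTranslate ((P.a ^ P.p : ℤ) : ℚ)).r ∈ Av := by
      have : algebraMap ℚ Qb (legendreTranslate ((P.a ^ P.p : ℤ) : ℚ)).r =
          ((P.a ^ P.p : ℤ) : Qb) := by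
        simp [legendreTranslate]
      rw [this]; exact intCast_mem Av _
    have hs2 : algebraMap ℚ Qb (legendreTranslate ((P.a ^ P.p : ℤ) : ℚ)).s ∈ Av := by
      have : algebraMap ℚ Qb (legendreTranslate ((P.a ^ P.p : ℤ) : ℚ)).s = 0 := by
        simp [legendreTranslate]
      rw [this]; exact zero_mem _
    have ht2 : algebraMap ℚ Qb (legendreTranslate ((P.a ^ P.p : ℤ) : ℚ)).t ∈ Av := by
      have : algebraMap ℚ Qb (legendreTranslate ((P.a ^ P.p : ℤ) : ℚ)).t = 0 := by
        simp [legendreTranslate]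
      rw [this]; exact zero_mem _
    refine MresBC.transfer _ h₁ Av hu2 hr2 hs2 ht2 (mres_legendre_integral _ _ Av) ?_
    refine (mres_core_legendre (-(P.a ^ P.p)) (P.c ^ P.p) hq hq2 Av hAv ?_ ?_
      (neg_ne_zero.mpr hpa0) hpc0 ?_).bc
    · intro hdvd
      have ha : (P.p : ℤ) ∣ P.a ^ P.p := by
        have := dvd_sub hdvd (dvd_pow hc P.hp0)
        simpa using this
      exact hna (hqZ.dvd_of_dvd_pow ha)
    · exact dvd_mul_of_dvd_right (dvd_pow hc P.hp0) _
    · rw [← hFLT]
      simpa using hpb0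

/-- **(e1) for the Frey curve at `p ∣ abc`, in the literal form of `MreShapeSpec`** (block `mre`):
(a) inertia moves `E[p]` inside the kernel of reduction; (b) some `x ∈ E[p]` is outside the kernel of
reduction; (c) `v (z x) ^ (p - 1) = v p` for `0 ≠ x ∈ E[p] ∩ ker red`. -/
theorem mres_frey_shape (P : FreyPackage) :
    ∀ A : ValuationSubring Qb, A.LiesOverPrime P.p → (P.p : ℤ) ∣ P.a * P.b * P.c →
      (∀ σ ∈ A.inertiaSubgroupIn ℚ, ∀ x : Submodule.torsionBy ℤ (P.freyCurve⁄Qb).Point P.p,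
        InKerRed A (P.freyCurve⁄Qb)
          ((σ • x - x : Submodule.torsionBy ℤ (P.freyCurve⁄Qb).Point P.p) :
            (P.freyCurve⁄Qb).Point)) ∧
      (∃ x : Submodule.torsionBy ℤ (P.freyCurve⁄Qb).Point P.p,
        ¬ InKerRed A (P.freyCurve⁄Qb) (x : (P.freyCurve⁄Qb).Point)) ∧
      (∀ x : Submodule.torsionBy ℤ (P.freyCurve⁄Qb).Point P.p, x ≠ 0 →
        InKerRed A (P.freyCurve⁄Qb) (x : (P.freyCurve⁄Qb).Point) →
        A.valuation (zCoord (P.freyCurve⁄Qb) (x : (P.freyCurve⁄Qb).Point)) ^ (P.p - 1) =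
          A.valuation (P.p : Qb)) := by
  intro A hA hp
  have htors : ∀ x : Submodule.torsionBy ℤ (P.freyCurve⁄Qb).Point P.p,
      P.p • (x : (P.freyCurve⁄Qb).Point) = 0 := by
    intro x
    have := x.2
    rw [Submodule.mem_torsionBy_iff] at this
    exact_mod_cast this
  obtain ⟨⟨Q, hpQ, hQ⟩, H2⟩ := mres_frey_bc P A hA hp
  refine ⟨?_, ?_, ?_⟩
  · intro σ hσ x
    exact frey_inKerRed_map_sub P A hA σ hσ (x : (P.freyCurve⁄Qb).Point) (htors x)
  · refine ⟨⟨Q, ?_⟩, hQ⟩
    rw [Submodule.mem_torsionBy_iff]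
    exact_mod_cast hpQ
  · intro x hx0 hk
    exact H2 (x : (P.freyCurve⁄Qb).Point) (fun h0 => hx0 (Subtype.ext h0)) (htors x) hk

end Fermat.Agent.MR
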