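import Mathlib
import Fermat.Agent.S05.ComponentsInd
import Fermat.Agent.S05.LegendreUnram
import Fermat.Agent.MR.ESide.ShapeCount

/-!
# MR / E-side, leaf (e1), file ShapeNode: `E[p] ∖ V'` reduces to the node

Setting of `ShapeCore` (`MresCore W₀ W' p Av`), `E = W'⁄Qbar`.
`E⁰ := {kap = 1}` (non-singular reduction) is a subgroup by the pair law of `S05/Components`;
`E⁰ ∩ E[p]` contains `V'` (of index `p` in `E[p]`) and misses the point of `exists_node`, so it
equals `V'`.

* `MresCore.multRed` : the core is an instance of `S05.IsMultRed`;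
* `MresCore.node`    : **(Node)** `P ∈ E[p] ∖ V' → v (x P) < 1`.
-/

set_option autoImplicit false

namespace Fermat.Agent.MR

open WeierstrassCurve WeierstrassCurve.Affine WeierstrassCurve.Affine.Point
open Fermat.Agent.S05 Fermat.Agent.S13

local notation "Qb" => AlgebraicClosure ℚ

namespace MresCore

variable {W₀ : WeierstrassCurve ℤ} {W' : Affine ℚ} {p : ℕ} {Av : ValuationSubring Qb}

lemma a₄_ne (h : MresCore W₀ W' p Av) : W₀.a₄ ≠ 0 := by
  intro h0
  apply h.disc
  rw [h.map, WeierstrassCurve.map_Δ]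
  have : W₀.Δ = 0 := by
    simp only [WeierstrassCurve.Δ, WeierstrassCurve.b₂, WeierstrassCurve.b₄, WeierstrassCurve.b₆,
      WeierstrassCurve.b₈, h.a₁, h.a₃, h.a₆, h0]
    ring
  rw [this, _root_.map_zero]

/-- the core is an instance of multiplicative reduction with the node at the origin -/
lemma multRed (h : MresCore W₀ W' p Av) : IsMultRed Av.valuation (W'⁄Qb) := by
  have e := pt_baseChange_eq W₀ W' h.map
  refine ⟨?_, legunram_val_two h.pp h.p2 Av h.lies, ?_, ?_, ?_⟩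
  · rw [e]
    exact ⟨by simp [h.a₁], by simp [h.a₃], by simp [h.a₆]⟩
  · rw [e]
    show Av.valuation ((W₀.a₂ : ℤ) : Qb) = 1
    exact (valuation_intCast_eq_one_iff Av h.pp h.lies _).mpr h.a₂
  · rw [e]
    show Av.valuation ((W₀.a₄ : ℤ) : Qb) < 1
    refine lt_of_le_of_ne (valuation_intCast_le_one Av _) ?_
    rw [Ne, valuation_intCast_eq_one_iff Av h.pp h.lies, not_not]
    exact h.a₄
  · rw [e]
    show ((W₀.a₄ : ℤ) : Qb) ≠ 0
    exact_mod_cast h.a₄_ne

/-- `E⁰ ∩ E[p]` -/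
noncomputable def E0p (h : MresCore W₀ W' p Av) : AddSubgroup (W'⁄Qb).Point where
  carrier := {P | p • P = 0 ∧ kap Av.valuation P = 1}
  zero_mem' := ⟨smul_zero p, kap_zero _⟩
  add_mem' := fun {P Q} hP hQ => by
    refine ⟨by rw [nsmul_add, hP.1, hQ.1, add_zero], ?_⟩
    have hβ : Av.valuation (W'⁄Qb).a₄ ^ 2 ≤ 1 := pow_le_one₀ zero_le h.multRed.a₄_lt.le
    rcases kap_pair Av.valuation h.multRed P Q with ⟨h1, -⟩ | ⟨-, h1⟩
    · rw [h1, hP.2, hQ.2]
      simp
    · rw [h1, hP.2, hQ.2]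
      simp only [mul_one, div_one]
      exact max_eq_left hβ
  neg_mem' := fun {P} hP => ⟨by rw [neg_nsmul, hP.1, _root_.neg_zero], by rw [kap_neg]; exact hP.2⟩

lemma V_le_E0p (h : MresCore W₀ W' p Av) : mresV W' p Av h.integral ≤ h.E0p := by
  intro P hP
  refine ⟨hP.1, ?_⟩
  rw [kap_eq_one_iff Av.valuation h.multRed]
  rcases P with _ | ⟨x, y, hxy⟩
  · exact Or.inl rfl
  · right
    exact (one_lt_val_of_not_mem hP.2).le

lemma E0p_le_Ep (h : MresCore W₀ W' p Av) : h.E0p ≤ mresEp W' p := fun _ hP => hP.1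

lemma E0p_ne_Ep (h : MresCore W₀ W' p Av) : h.E0p ≠ mresEp W' p := by
  intro heq
  obtain ⟨P, hP0, hpP, hx⟩ := h.exists_node
  have hP : P ∈ h.E0p := by
    rw [heq]
    exact hpP
  rcases (kap_eq_one_iff Av.valuation h.multRed P).mp hP.2 with h0 | h1
  · exact hP0 h0
  · exact absurd hx (not_lt.mpr h1)

lemma E0p_eq_V (h : MresCore W₀ W' p Av) : h.E0p = mresV W' p Av h.integral := by
  haveI := h.finite_Ep
  haveI : Finite h.E0p := Finite.of_injective
    (fun x : h.E0p => (⟨x.1, h.E0p_le_Ep x.2⟩ : mresEp W' p))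
    (fun a b hab => Subtype.ext (congrArg (fun t : mresEp W' p => (t : (W'⁄Qb).Point)) hab))
  have hdvd : Nat.card h.E0p ∣ p ^ 2 := by
    rw [← h.card_Ep]
    exact AddSubgroup.card_dvd_of_le h.E0p_le_Ep
  have hdvd2 : p ∣ Nat.card h.E0p := by
    have := AddSubgroup.card_dvd_of_le h.V_le_E0p
    rwa [h.card_V] at this
  obtain ⟨m, hm, hcard⟩ := (Nat.dvd_prime_pow h.pp).mp hdvd
  symm
  interval_cases m
  · exfalso
    rw [pow_zero] at hcard
    rw [hcard] at hdvd2
    exact h.pp.one_lt.ne' (Nat.dvd_one.mp hdvd2)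
  · refine AddSubgroup.eq_of_le_of_card_ge h.V_le_E0p ?_
    rw [hcard, h.card_V, pow_one]
  · exfalso
    apply h.E0p_ne_Ep
    haveI : Finite (mresEp W' p) := h.finite_Ep
    refine AddSubgroup.eq_of_le_of_card_ge h.E0p_le_Ep ?_
    rw [hcard, h.card_Ep]

/-- **(Node)**: a `p`-torsion point outside the kernel of reduction reduces to the node. -/
theorem node (h : MresCore W₀ W' p Av) {P : (W'⁄Qb).Point} (hpP : p • P = 0)
    (hP : ¬ InKerRed Av (W'⁄Qb) P) : Av.valuation (xc P) < 1 := by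
  by_contra hlt
  rw [not_lt] at hlt
  apply hP
  have hmem : P ∈ h.E0p :=
    ⟨hpP, (kap_eq_one_iff Av.valuation h.multRed P).mpr (Or.inr hlt)⟩
  rw [h.E0p_eq_V] at hmem
  exact hmem.2

end MresCore

end Fermat.Agent.MR
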