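import Mathlib
import Fermat.Agent.MR.ESide.ShapeSpec
import Fermat.Agent.MR.ESide.ShapeFrey
import Fermat.Agent.MR.ESide.ShapeNode
import Fermat.Agent.MR.ESide.ShapeEps

/-!
# MR / E-side, leaf (e1): `MresShapeSpec` is PROVED

`mres_shape : MresShapeSpec` - the inertia shape of `E[p]` at the residue characteristic `p` on the
Legendre model `legendreCurve A B` (`p ∣ A B`, `p ∤ B - A`, `-A B = u d ^ p`):
`MresLine` (`ShapeCount`: Newton polygon of `preΨ_p` + `#E[p] = p²`), `MresQuot` (main `S13`),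
`MresEps` (`ShapeEps`), `MresE2` (`ShapeCount`), `MresNode` (`ShapeNode`).
-/

set_option autoImplicit false

namespace Fermat.Agent.MR

open WeierstrassCurve WeierstrassCurve.Affine WeierstrassCurve.Affine.Point
open Fermat.Agent.S05 Fermat.Agent.S13

local notation "Qb" => AlgebraicClosure ℚ

/-- the hypotheses of the Spec give an instance of the core -/
theorem MresHyp.core {A B : ℤ} {p : ℕ} {Av : ValuationSubring Qb} (h : MresHyp A B p Av) :
    MresCore (mresLegInt A B) (legendreCurve A B) p Av :=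
  mres_core_legendre A B h.pp h.p2 Av h.lies h.a₂ h.a₄ h.disc.1 h.disc.2.1 h.disc.2.2

theorem mres_line {A B : ℤ} {p : ℕ} {Av : ValuationSubring Qb} (h : MresHyp A B p Av) :
    MresLine (legendreCurve A B) p Av := by
  have hc := h.core
  have hne : ∃ T₀ : ((legendreCurve A B)⁄Qb).Point,
      T₀ ∈ mresV (legendreCurve A B) p Av hc.integral ∧ T₀ ≠ 0 := by
    by_contra hcon
    push Not at hcon
    apply hc.V_ne_bot
    rw [eq_bot_iff]
    intro T hT
    exact (AddSubgroup.mem_bot).mpr (hcon T hT)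
  obtain ⟨T₀, hT₀, h0⟩ := hne
  refine ⟨⟨T₀, h0, hT₀.1, hT₀.2, fun T hpT hT => hc.exists_nsmul hT₀ h0 ⟨hpT, hT⟩⟩, ?_⟩
  by_contra hcon
  push Not at hcon
  apply hc.V_ne_Ep
  refine le_antisymm (mresV_le hc.integral) ?_
  intro P hP
  exact ⟨hP, hcon P hP⟩

theorem mres_quot {A B : ℤ} {p : ℕ} {Av : ValuationSubring Qb} (h : MresHyp A B p Av) :
    MresQuot (legendreCurve A B) p Av := by
  obtain ⟨u, d, hu, hd, hd0⟩ := h.pow
  intro σ hσ P hpP
  exact freyP_legendre_mult_sub A B h.pp.ne_zero h.pp h.p2 h.a₂ h.a₄ u d hu hd hd0 Av h.lies σ hσ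
    P hpP

theorem mres_eps {A B : ℤ} {p : ℕ} {Av : ValuationSubring Qb} (h : MresHyp A B p Av) :
    MresEps (legendreCurve A B) p Av :=
  fun σ hσ ζ e hζ1 hζ hσζ T hpT hT => h.core.eps σ hσ ζ e hζ1 hζ hσζ T hpT hT

theorem mres_e2 {A B : ℤ} {p : ℕ} {Av : ValuationSubring Qb} (h : MresHyp A B p Av) :
    MresE2 (legendreCurve A B) p Av :=
  fun _ hT0 hpT hT => h.core.e2 hT0 hpT hT

theorem mres_node {A B : ℤ} {p : ℕ} {Av : ValuationSubring Qb} (h : MresHyp A B p Av) :
    MresNode (legendreCurve A B) p Av :=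
  fun _ hpP hP => h.core.node hpP hP

/-- **leaf (e1)**: the inertia shape at `p`. -/
theorem mres_shape : MresShapeSpec :=
  fun _ _ _ _ h => ⟨mres_line h, mres_quot h, mres_eps h, mres_e2 h, mres_node h⟩

end Fermat.Agent.MR
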