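import Fermat.Agent.MR.ESide.ToTop
import Fermat.Agent.MR.ESide.Shape
import Fermat.Agent.MR.E.Frey

/-!
# PROGRAM MR (S44), BLOCK `mre` : THE TOP-LEVEL LEAF `MraESpec`, UNCONDITIONALLY

Owner: helper13.  Namespace `Fermat.Agent.MR`, prefix `mrex`.

`mrex_E : MraESpec` = `mrex_ESpec` (adapter, helper13) fed with `mres_shape : MresShapeSpec` (leaf
(e1), helper27) and `mref_P1 : MresShapeSpec → ∀ P, MreP1Spec P` (block `mre`, helper10).
-/

set_option autoImplicit false

namespace Fermat.Agent.MR

/-- **THE E-SIDE LEAF OF S44** : at `p ∣ abc` the inertia group at `p` acts on `E[p]` of the Frey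
curve through the shape `(ε *; 0 1)`, and the field cut out by `E[p]` has (P1). -/
theorem mrex_E : MraESpec :=
  mrex_ESpec mres_shape (fun P => mref_P1 mres_shape P)

end Fermat.Agent.MR
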