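import Mathlib
import Fermat.Prelude.Def_FLTPrelim_FreyPackage
import Fermat.Prelude.Def_FLTPrelim_GaloisRep
import Fermat.Prelude.Def_FLTPrelim_Ramification
import Fermat.Agent.S05.VariableChangeGalois
import Fermat.Agent.S13.FreyP
import Fermat.Agent.FF.InertiaRing
import Fermat.Agent.MR.ESide.MultPt

/-!
# PROGRAM MR (S44), E-SIDE, leaf (e2) : THE ELEMENT `τ` ON THE FREY MODEL (`MreTauSpec`)

Owner: helper13.  Namespace `Fermat.Agent.MR`, prefix `mremt`.

* `mremt_val_zCoord_vcPoint` : a change of variables `(u, r, s, t)` with `u` a unit and `r s t`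
  integral preserves `v (z T)` on the kernel of reduction;
* `MremtNode P` : the ONLY input from leaf (e1) : on the Legendre models `Y² = X (X - A) (X + B)` with
  the node at the origin, a `p`-torsion point outside the kernel of reduction reduces to the node
  (`v (x) < 1`)  [= `MresNode` of `MR/ESide/ShapeSpec.lean`, premises = the fields of `MresHyp`];
* `mremt_tau` : the literal body of `MreTauSpec P` of `MR/E/Spec.lean` : for the Frey curve, `A` over
  `p ∣ abc`, a `p`-torsion point `P₀` outside the kernel of reduction and `σ ∈ I` moving it, there is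
  `τ ∈ 𝔪_A`, fixed by `I ∩ Stab(P₀)`, with `v (σ τ - τ) = v (z (σ P₀ - P₀))`
  (`τ = x(P₀) / c₀ - r₀` in the Legendre model, `c₀ ∈ ℚˣ`, `r₀ ∈ W = A^I` a Teichmüller lift).
-/

set_option autoImplicit false
set_option linter.unusedSectionVars false
set_option linter.unusedVariables false

namespace Fermat.Agent.MR

open WeierstrassCurve WeierstrassCurve.Affine Fermat.Agent.S05 Fermat.Agent.S13 Fermat.Agent.FF

local notation "Qb" => AlgebraicClosure ℚ

/-- a change of variables with `u` a unit and `r`, `s`, `t` integral preserves the valuation of the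
local parameter `z = -x/y` on the kernel of reduction. -/
theorem mremt_val_zCoord_vcPoint {K : Type*} [Field K] [DecidableEq K] (A : ValuationSubring K)
    {W W' : WeierstrassCurve K} (C : VariableChange K) (h : W' = C • W)
    (hW' : IsIntegralAt A W'.toAffine) (hu : A.valuation (C.u : K) = 1) (hr : C.r ∈ A)
    (hs : C.s ∈ A) (ht : C.t ∈ A) (Q : W'.toAffine.Point) (hQ : InKerRed A W'.toAffine Q) :
    A.valuation (zCoord W.toAffine (vcPoint C h Q)) = A.valuation (zCoord W'.toAffine Q) := by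
  rcases Q with _ | ⟨x, y, hxy⟩
  · rfl
  · rw [vcPoint_some, zCoord_some, zCoord_some, map_div₀, map_div₀, Valuation.map_neg,
      Valuation.map_neg]
    obtain ⟨i₁, i₂, i₃, i₄, i₆⟩ := integral_vals hW'
    have hx1 : 1 < A.valuation x := one_lt_val_of_not_mem hQ
    obtain ⟨-, hlt⟩ := KerRed.val_y_of_val_x i₁ i₂ i₃ i₄ i₆ (weq_of_equation hxy.left) hx1
    have hr' := (A.valuation_le_one_iff _).mpr hr
    have hs' := (A.valuation_le_one_iff _).mpr hs
    have ht' := (A.valuation_le_one_iff _).mpr ht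
    have hX : A.valuation (vcX C x) = A.valuation x := by
      have h1 : A.valuation ((C.u : K) ^ 2 * x) = A.valuation x := by
        rw [map_mul, map_pow, hu, one_pow, one_mul]
      unfold vcX
      rw [Valuation.map_add_eq_of_lt_left _ (by rw [h1]; exact lt_of_le_of_lt hr' hx1), h1]
    have hY : A.valuation (vcY C x y) = A.valuation y := by
      have h1 : A.valuation ((C.u : K) ^ 3 * y) = A.valuation y := by
        rw [map_mul, map_pow, hu, one_pow, one_mul]
      have h2 : A.valuation ((C.u : K) ^ 2 * C.s * x) < A.valuation y := by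
        rw [map_mul, map_mul, map_pow, hu, one_pow, one_mul]
        calc A.valuation C.s * A.valuation x ≤ 1 * A.valuation x := mul_le_mul' hs' le_rfl
          _ = A.valuation x := one_mul _
          _ < A.valuation y := hlt
      have h3 : A.valuation ((C.u : K) ^ 3 * y + (C.u : K) ^ 2 * C.s * x) = A.valuation y := by
        rw [Valuation.map_add_eq_of_lt_left _ (by rw [h1]; exact h2), h1]
      unfold vcY
      rw [Valuation.map_add_eq_of_lt_left _
        (by rw [h3]; exact lt_of_le_of_lt ht' (hx1.trans hlt)), h3]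
    rw [hX, hY]

/-- **THE INPUT FROM LEAF (e1)** (`MresNode`, helper27) for the prime `p` : on every Legendre model
with the node at the origin, a `p`-torsion point outside the kernel of reduction reduces to the
node. -/
def MremtNode (p : ℕ) : Prop :=
  ∀ (A B : ℤ) (Av : ValuationSubring Qb), p.Prime → p ≠ 2 → Av.LiesOverPrime p →
    ¬ (p : ℤ) ∣ B - A → (p : ℤ) ∣ A * B → (A ≠ 0 ∧ B ≠ 0 ∧ A + B ≠ 0) →
    (∃ u d : ℤ, ¬ (p : ℤ) ∣ u ∧ -(A * B) = u * d ^ p ∧ d ≠ 0) →
    ∀ Pt : (((legendreCurve A B : WeierstrassCurve ℚ)⁄Qb) : Affine Qb).Point, p • Pt = 0 →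
      ¬ InKerRed Av (((legendreCurve A B : WeierstrassCurve ℚ)⁄Qb) : Affine Qb) Pt →
        Av.valuation (xc Pt) < 1

/-- `σ (x P) = x (σ • P)`. -/
theorem mremt_xc_smul (W' : Affine ℚ) (σ : Qb ≃ₐ[ℚ] Qb) (Q : (W'⁄Qb).Point) :
    σ (xc Q) = xc (σ • Q) := by
  rcases Q with _ | ⟨x, y, h⟩
  · exact map_zero σ
  · rfl

/-- the Legendre model with integer parameters is integral at every place. -/
theorem mremt_legendre_isIntegralAt (A B : ℤ) (Av : ValuationSubring Qb) :
    IsIntegralAt Av (((legendreCurve A B : WeierstrassCurve ℚ)⁄Qb) : Affine Qb) := by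
  have e₁ : (((legendreCurve A B : WeierstrassCurve ℚ)⁄Qb)).a₁ = ((0 : ℤ) : Qb) := by
    show algebraMap ℚ Qb (legendreCurve A B).a₁ = _
    simp [legendreCurve]
  have e₂ : (((legendreCurve A B : WeierstrassCurve ℚ)⁄Qb)).a₂ = ((B - A : ℤ) : Qb) := by
    show algebraMap ℚ Qb (legendreCurve A B).a₂ = _
    simp [legendreCurve]
  have e₃ : (((legendreCurve A B : WeierstrassCurve ℚ)⁄Qb)).a₃ = ((0 : ℤ) : Qb) := by
    show algebraMap ℚ Qb (legendreCurve A B).a₃ = _
    simp [legendreCurve]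
  have e₄ : (((legendreCurve A B : WeierstrassCurve ℚ)⁄Qb)).a₄ = ((-(A * B) : ℤ) : Qb) := by
    show algebraMap ℚ Qb (legendreCurve A B).a₄ = _
    simp [legendreCurve]
  have e₆ : (((legendreCurve A B : WeierstrassCurve ℚ)⁄Qb)).a₆ = ((0 : ℤ) : Qb) := by
    show algebraMap ℚ Qb (legendreCurve A B).a₆ = _
    simp [legendreCurve]
  refine ⟨?_, ?_, ?_, ?_, ?_⟩
  · rw [e₁]; exact intCast_mem Av _
  · rw [e₂]; exact intCast_mem Av _
  · rw [e₃]; exact intCast_mem Av _
  · rw [e₄]; exact intCast_mem Av _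
  · rw [e₆]; exact intCast_mem Av _

/-- **(e2) ON THE FREY MODEL** = the literal body of `MreTauSpec P`. -/
theorem mremt_tau (P : FreyPackage) (hnode : MremtNode P.p)
    (A : ValuationSubring Qb) (hA : A.LiesOverPrime P.p) (hp : (P.p : ℤ) ∣ P.a * P.b * P.c)
    (P₀ : Submodule.torsionBy ℤ (P.freyCurve⁄Qb).Point P.p)
    (hP₀ : ¬ InKerRed A (P.freyCurve⁄Qb) (P₀ : (P.freyCurve⁄Qb).Point))
    (σ : Qb ≃ₐ[ℚ] Qb) (hσ : σ ∈ A.inertiaSubgroupIn ℚ) (hmove : σ • P₀ ≠ P₀) :
    ∃ τ : Qb, (∀ g ∈ A.inertiaSubgroupIn ℚ, g • P₀ = P₀ → g τ = τ) ∧ τ ∈ A.nonunits ∧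
      A.valuation (σ τ - τ) = A.valuation (zCoord (P.freyCurve⁄Qb)
        ((σ • P₀ - P₀ : Submodule.torsionBy ℤ (P.freyCurve⁄Qb).Point P.p) :
          (P.freyCurve⁄Qb).Point)) := by
  have : Algebra.IsAlgebraic ℚ Qb := AlgebraicClosure.isAlgebraic ℚ
  have hq : P.p.Prime := P.pp
  have hq2 : P.p ≠ 2 := by have := P.hp5; omega
  haveI : Fact P.p.Prime := ⟨hq⟩
  have hσ' := isInertiaLike_of_mem_inertiaSubgroupIn A σ hσ
  have h2 := legunram_val_two hq hq2 A hA
  obtain ⟨A', B', C, u, d, hC, ha₂, ha₄, hAB, hu, hd, hd0, hCu, m, hCr, hCs, hCt⟩ :=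
    mremf_model_int P hp
  -- the change of variables is a unit / integral at `A`
  have hv4 : A.valuation (4 : Qb) = 1 := by
    have : (4 : Qb) = 2 * 2 := by norm_num
    rw [this, map_mul, h2, one_mul]
  have hv8 : A.valuation (8 : Qb) = 1 := by
    have : (8 : Qb) = 2 * 4 := by norm_num
    rw [this, map_mul, h2, hv4, one_mul]
  have hm : A.valuation ((m : ℤ) : Qb) ≤ 1 := valuation_intCast_le_one A m
  have hu1 : A.valuation (((C.baseChange Qb).u : Qb)) = 1 := by
    have : (((C.baseChange Qb).u : Qb)) = algebraMap ℚ Qb (C.u : ℚ) := by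
      simp [VariableChange.baseChange, VariableChange.map]
    rw [this, hCu]
    simp [h2]
  have hr1 : (C.baseChange Qb).r ∈ A := by
    have : (C.baseChange Qb).r = algebraMap ℚ Qb C.r := by
      simp [VariableChange.baseChange, VariableChange.map]
    rw [this, hCr, ← A.valuation_le_one_iff, map_div₀, map_div₀ (A.valuation), map_intCast,
      map_ofNat, hv4, div_one]
    exact hm
  have hs1 : (C.baseChange Qb).s ∈ A := by
    have : (C.baseChange Qb).s = algebraMap ℚ Qb C.s := by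
      simp [VariableChange.baseChange, VariableChange.map]
    rw [this, hCs, ← A.valuation_le_one_iff]
    simp [h2]
  have ht1 : (C.baseChange Qb).t ∈ A := by
    have : (C.baseChange Qb).t = algebraMap ℚ Qb C.t := by
      simp [VariableChange.baseChange, VariableChange.map]
    rw [this, hCt, ← A.valuation_le_one_iff, map_neg, Valuation.map_neg, map_div₀,
      map_div₀ (A.valuation), map_intCast, map_ofNat, hv8, div_one]
    exact hm
  -- the two models and the isomorphism between their points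
  set EL : Affine Qb := (((legendreCurve A' B' : WeierstrassCurve ℚ)⁄Qb) : Affine Qb) with hEL
  have hint : IsIntegralAt A EL := mremt_legendre_isIntegralAt A' B' A
  set φ := vcPointBC C hC Qb with hφ
  have hφker : ∀ Q : EL.Point, InKerRed A (P.freyCurve⁄Qb) (φ Q) ↔ InKerRed A EL Q := fun Q =>
    freyP_inKerRed_vcPoint_iff A (C.baseChange Qb) (baseChange_eq_smul C hC Qb) hu1 hr1 Q
  have hφz : ∀ Q : EL.Point, InKerRed A EL Q →
      A.valuation (zCoord (P.freyCurve⁄Qb) (φ Q)) = A.valuation (zCoord EL Q) := fun Q hQ =>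
    mremt_val_zCoord_vcPoint A (C.baseChange Qb) (baseChange_eq_smul C hC Qb) hint hu1 hr1 hs1 ht1
      Q hQ
  -- the point on the Legendre model
  set Q₀ : EL.Point := φ.symm (P₀ : (P.freyCurve⁄Qb).Point) with hQ₀
  have hφQ₀ : φ Q₀ = (P₀ : (P.freyCurve⁄Qb).Point) := AddEquiv.apply_symm_apply _ _
  have hP₀p : P.p • (P₀ : (P.freyCurve⁄Qb).Point) = 0 := by
    have := P₀.2
    rw [Submodule.mem_torsionBy_iff] at this
    rw [← natCast_zsmul]
    exact_mod_cast this
  have hQ₀p : P.p • Q₀ = 0 := by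
    rw [hQ₀, ← map_nsmul, hP₀p, map_zero]
  have hQ₀k : ¬ InKerRed A EL Q₀ := fun hk => hP₀ (by rw [← hφQ₀]; exact (hφker Q₀).mpr hk)
  have hQ₀0 : Q₀ ≠ 0 := fun h0 => hQ₀k (by rw [h0]; exact inKerRed_zero)
  have hdisc : A' ≠ 0 ∧ B' ≠ 0 ∧ A' + B' ≠ 0 := by
    refine ⟨left_ne_zero_of_mul hAB, right_ne_zero_of_mul hAB, ?_⟩
    intro h0
    have hB : B' = -A' := by linarith
    have hqZ : Prime (P.p : ℤ) := Nat.prime_iff_prime_int.1 hq
    have h1 : (P.p : ℤ) ∣ A' * A' := by
      have := ha₄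
      rw [hB] at this
      simpa using this
    have hA' : (P.p : ℤ) ∣ A' := by
      rcases hqZ.dvd_or_dvd h1 with h | h <;> exact h
    apply ha₂
    rw [hB]
    exact dvd_sub ((dvd_neg).2 hA') hA'
  have hx : A.valuation (xc Q₀) < 1 :=
    hnode A' B' A hq hq2 hA ha₂ ha₄ hdisc ⟨u, d, hu, hd, hd0⟩ Q₀ hQ₀p hQ₀k
  -- `T = σ Q₀ - Q₀` is a non-zero point of the kernel of reduction
  have hTk : InKerRed A EL (σ • Q₀ - Q₀) :=
    freyP_legendre_mult_sub A' B' P.hp0 hq hq2 ha₂ ha₄ u d hu hd hd0 A hA σ hσ' Q₀ hQ₀p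
  have hφT : φ (σ • Q₀ - Q₀) =
      ((σ • P₀ - P₀ : Submodule.torsionBy ℤ (P.freyCurve⁄Qb).Point P.p) :
        (P.freyCurve⁄Qb).Point) := by
    rw [map_sub, hφ, vcPointBC_smul, ← hφ, hφQ₀]
    rfl
  have hT0 : σ • Q₀ - Q₀ ≠ 0 := by
    intro h0
    apply hmove
    apply Subtype.ext
    have h1 : σ • Q₀ = Q₀ := sub_eq_zero.mp h0
    have h2' : φ (σ • Q₀) = φ Q₀ := by rw [h1]
    rw [hφ, vcPointBC_smul, ← hφ, hφQ₀] at h2'
    exact h2'
  obtain ⟨c₀, hc0, hvc, hunit, hτ⟩ :=
    mremp_tau A' B' hq hq2 ha₂ ha₄ hAB u d hu hd A hA σ Q₀ hQ₀p hQ₀0 hx hT0 hTk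
  -- subtract a Teichmüller lift
  have ha : xc Q₀ / algebraMap ℚ Qb c₀ ∈ A := (A.valuation_le_one_iff _).mp hunit.le
  obtain ⟨w, hw, hsub⟩ := ffiw_residue_surjective A hA ha
  refine ⟨xc Q₀ / algebraMap ℚ Qb c₀ - w, ?_, hsub, ?_⟩
  · intro g hg hgP
    have hgQ : g • Q₀ = Q₀ := by
      have h1 : g • (P₀ : (P.freyCurve⁄Qb).Point) = (P₀ : (P.freyCurve⁄Qb).Point) :=
        congrArg Subtype.val hgP
      rw [hQ₀, hφ, ← vcPointBC_symm_smul, h1]
    have hgx : g (xc Q₀) = xc Q₀ := by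
      rw [mremt_xc_smul (legendreCurve A' B' : Affine ℚ) g Q₀, hgQ]
    rw [map_sub, map_div₀, hgx, g.commutes, ffiw_fixed hw hg]
  · have e : σ (xc Q₀ / algebraMap ℚ Qb c₀ - w) - (xc Q₀ / algebraMap ℚ Qb c₀ - w) =
        σ (xc Q₀ / algebraMap ℚ Qb c₀) - xc Q₀ / algebraMap ℚ Qb c₀ := by
      rw [map_sub, ffiw_fixed hw hσ]
      ring
    rw [e, hτ, ← hφT, hφz _ hTk]

end Fermat.Agent.MR
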