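import Fermat.Agent.MR.Spec
import Fermat.Agent.MR.E.Spec
import Fermat.Agent.MR.ESide.ShapeSpec
import Fermat.Agent.MR.ESide.MultTau
import Fermat.Agent.S41.NE.Tors
import Fermat.Agent.S13.FreyTorsion

/-!
# PROGRAM MR (S44), BLOCK `mre` : THE ADAPTER TO THE TOP LEVEL (`MraESpec`)

Owner: helper13 (PM ruling R63 (a)).  Namespace `Fermat.Agent.MR`, prefix `mrex`.

`MraESpec` (helper16, `MR/Spec.lean`) from
* `MresShapeSpec` (helper27, `MR/ESide/ShapeSpec.lean`: the inertia shape on the Legendre models),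
* `∀ P, MreP1Spec P` (helper10, `MR/E/Spec.lean`: (P1) for the Frey curve),
* main's `s41net_card_torsionBy_rat` (`#E[p] = p²`), `frey_inKerRed_map_sub` (S13).

Contents: (i) `mrex_shape` : `MraShape` on `E[p]` of the Frey curve (the line `V' = E[p] ∩ ker(red)`
moved from the Legendre model by `vcPointBC`); (ii) `mrex_H_eq` : `mraH 𝔸 ⊤ = mreStab 𝔸 ζ E[p]` (an
element of `I` fixing `E[p]` pointwise fixes `ζ`); (iii) `mrex_P1At` : `MreP1 → MraP1At`;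
`mrex_ESpec` : the adapter.
-/

set_option autoImplicit false
set_option linter.unusedSectionVars false
set_option linter.unusedVariables false

noncomputable section

namespace Fermat.Agent.MR

open WeierstrassCurve WeierstrassCurve.Affine WeierstrassCurve.Affine.Point
open Fermat.Agent.S05 Fermat.Agent.S13 Fermat.Agent.FF

local notation "Qb" => AlgebraicClosure ℚ
local notation "GQ" => (AlgebraicClosure ℚ ≃ₐ[ℚ] AlgebraicClosure ℚ)

/-- (iii) `MreP1` and `MraP1At` have the same fields. -/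
theorem mrex_P1At {p : ℕ} {𝔸 : ValuationSubring Qb} {H : Subgroup GQ} {σ : GQ} {π c : Qb}
    (h : MreP1 p 𝔸 H σ π c) : MraP1At p 𝔸 H σ π c :=
  ⟨h.fix, h.ne, h.lt, h.vg, h.ram, h.cW, h.cu, h.pic, h.triv, h.move⟩

/-- a primitive `p`-th root of unity of `ℚ̄`. -/
theorem mrex_exists_zeta {p : ℕ} (hp : p.Prime) : ∃ ζ : Qb, IsPrimitiveRoot ζ p := by
  have hdeg : (Polynomial.cyclotomic p Qb).degree ≠ 0 := by
    rw [Polynomial.degree_cyclotomic, Nat.totient_prime hp]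
    have := hp.two_le
    intro h
    have h1 : p - 1 = 0 := by exact_mod_cast h
    omega
  obtain ⟨ζ, hζ⟩ := IsAlgClosed.exists_root (Polynomial.cyclotomic p Qb) hdeg
  exact ⟨ζ, (Polynomial.isRoot_cyclotomic_iff_charZero hp.pos).mp hζ⟩

/-- **THE TRANSPORT PACKAGE** : the Legendre model of the Frey curve at `p ∣ abc` satisfies `MresHyp`,
and its points are `G_ℚ`-equivariantly isomorphic to those of the Frey model, compatibly with the
kernels of reduction at `𝔸`. -/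
theorem mrex_transport (P : FreyPackage) (hp : (P.p : ℤ) ∣ P.a * P.b * P.c)
    (𝔸 : ValuationSubring Qb) (h𝔸 : 𝔸.LiesOverPrime P.p) :
    ∃ (A B : ℤ), MresHyp A B P.p 𝔸 ∧
      ∃ φ : (((legendreCurve A B : WeierstrassCurve ℚ)⁄Qb) : Affine Qb).Point ≃+
          (P.freyCurve⁄Qb).Point,
        (∀ (σ : GQ) (Q : (((legendreCurve A B : WeierstrassCurve ℚ)⁄Qb) : Affine Qb).Point),
          φ (σ • Q) = σ • φ Q) ∧
        (∀ Q : (((legendreCurve A B : WeierstrassCurve ℚ)⁄Qb) : Affine Qb).Point,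
          InKerRed 𝔸 (P.freyCurve⁄Qb) (φ Q) ↔
            InKerRed 𝔸 (((legendreCurve A B : WeierstrassCurve ℚ)⁄Qb) : Affine Qb) Q) := by
  have hq : P.p.Prime := P.pp
  have hq2 : P.p ≠ 2 := by have := P.hp5; omega
  have h2 := legunram_val_two hq hq2 𝔸 h𝔸
  obtain ⟨A', B', C, u, d, hC, ha₂, ha₄, hAB, hu, hd, hd0, hCu, m, hCr, hCs, hCt⟩ :=
    mremf_model_int P hp
  have hv4 : 𝔸.valuation (4 : Qb) = 1 := by
    have : (4 : Qb) = 2 * 2 := by norm_num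
    rw [this, map_mul, h2, one_mul]
  have hm : 𝔸.valuation ((m : ℤ) : Qb) ≤ 1 := valuation_intCast_le_one 𝔸 m
  have hu1 : 𝔸.valuation (((C.baseChange Qb).u : Qb)) = 1 := by
    have : (((C.baseChange Qb).u : Qb)) = algebraMap ℚ Qb (C.u : ℚ) := by
      simp [VariableChange.baseChange, VariableChange.map]
    rw [this, hCu]
    simp [h2]
  have hr1 : (C.baseChange Qb).r ∈ 𝔸 := by
    have : (C.baseChange Qb).r = algebraMap ℚ Qb C.r := by
      simp [VariableChange.baseChange, VariableChange.map]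
    rw [this, hCr, ← 𝔸.valuation_le_one_iff, map_div₀, map_div₀ (𝔸.valuation), map_intCast,
      map_ofNat, hv4, div_one]
    exact hm
  have hdisc : A' ≠ 0 ∧ B' ≠ 0 ∧ A' + B' ≠ 0 := by
    refine ⟨left_ne_zero_of_mul hAB, right_ne_zero_of_mul hAB, ?_⟩
    intro h0
    have hB : B' = -A' := by linarith
    have hqZ : Prime (P.p : ℤ) := Nat.prime_iff_prime_int.1 hq
    have h1 : (P.p : ℤ) ∣ A' * A' := by
      have := ha₄
      rw [hB] at this
      simpa using this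
    have hA' : (P.p : ℤ) ∣ A' := by
      rcases hqZ.dvd_or_dvd h1 with h | h <;> exact h
    apply ha₂
    rw [hB]
    exact dvd_sub ((dvd_neg).2 hA') hA'
  refine ⟨A', B', ⟨hq, hq2, h𝔸, ha₂, ha₄, hdisc, ⟨u, d, hu, hd, hd0⟩⟩, vcPointBC C hC Qb,
    fun σ Q => vcPointBC_smul C hC σ Q, fun Q => ?_⟩
  exact freyP_inKerRed_vcPoint_iff 𝔸 (C.baseChange Qb) (baseChange_eq_smul C hC Qb) hu1 hr1 Q

/-- `V' = E[p] ∩ ker(red)` on the Frey model, as a subgroup of `E[p]`. -/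
def mrexLine (P : FreyPackage) (𝔸 : ValuationSubring Qb) : AddSubgroup (MraEp P) where
  carrier := {x | InKerRed 𝔸 (P.freyCurve⁄Qb) (x : (P.freyCurve⁄Qb).Point)}
  zero_mem' := by
    show InKerRed 𝔸 (P.freyCurve⁄Qb) (0 : (P.freyCurve⁄Qb).Point)
    exact inKerRed_zero
  add_mem' := by
    intro x y hx hy
    show InKerRed 𝔸 (P.freyCurve⁄Qb)
      ((x : (P.freyCurve⁄Qb).Point) + (y : (P.freyCurve⁄Qb).Point))
    exact inKerRed_add (frey_isIntegralAt P 𝔸) hx hy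
  neg_mem' := by
    intro x hx
    show InKerRed 𝔸 (P.freyCurve⁄Qb) (-(x : (P.freyCurve⁄Qb).Point))
    exact inKerRed_neg hx

theorem mem_mrexLine {P : FreyPackage} {𝔸 : ValuationSubring Qb} {x : MraEp P} :
    x ∈ mrexLine P 𝔸 ↔ InKerRed 𝔸 (P.freyCurve⁄Qb) (x : (P.freyCurve⁄Qb).Point) := Iff.rfl

/-- the `p`-torsion of a point of the Frey curve, in the `ℕ`-form. -/
theorem mrex_nsmul_coe (P : FreyPackage) (x : MraEp P) :
    P.p • (x : (P.freyCurve⁄Qb).Point) = 0 := by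
  have := x.2
  rw [Submodule.mem_torsionBy_iff] at this
  rw [← natCast_zsmul]
  exact_mod_cast this

/-- **THE CORE** : on the Frey model, `V'` is generated by one non-zero element `t₀`, and `I` acts on it
through the cyclotomic character. -/
theorem mrex_core (hshape : MresShapeSpec) (P : FreyPackage)
    (hp : (P.p : ℤ) ∣ P.a * P.b * P.c) (𝔸 : ValuationSubring Qb) (h𝔸 : 𝔸.LiesOverPrime P.p) :
    ∃ t₀ : MraEp P, t₀ ≠ 0 ∧ t₀ ∈ mrexLine P 𝔸 ∧ (∀ x ∈ mrexLine P 𝔸, ∃ k : ℕ, x = k • t₀) ∧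
      ∀ σ ∈ 𝔸.inertiaSubgroupIn ℚ, ∀ (ζ : Qb) (e : ℕ), ζ ≠ 1 → ζ ^ P.p = 1 → σ ζ = ζ ^ e →
        ∀ x ∈ mrexLine P 𝔸, σ • x = e • x := by
  have : Algebra.IsAlgebraic ℚ Qb := AlgebraicClosure.isAlgebraic ℚ
  obtain ⟨A', B', hyp, φ, hφσ, hφk⟩ := mrex_transport P hp 𝔸 h𝔸
  obtain ⟨⟨⟨T₀, hT₀0, hT₀p, hT₀k, hgen⟩, -⟩, -, hEps, -, -⟩ := hshape A' B' P.p 𝔸 hyp
  have htors : ∀ Q : (((legendreCurve A' B' : WeierstrassCurve ℚ)⁄Qb) : Affine Qb).Point,
      P.p • Q = 0 → φ Q ∈ Submodule.torsionBy ℤ (P.freyCurve⁄Qb).Point P.p := by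
    intro Q hQ
    rw [Submodule.mem_torsionBy_iff, natCast_zsmul, ← map_nsmul, hQ, _root_.map_zero]
  have hback : ∀ x : MraEp P, P.p • φ.symm (x : (P.freyCurve⁄Qb).Point) = 0 := by
    intro x
    rw [← map_nsmul, mrex_nsmul_coe P x, _root_.map_zero]
  have hbackk : ∀ x ∈ mrexLine P 𝔸,
      InKerRed 𝔸 (((legendreCurve A' B' : WeierstrassCurve ℚ)⁄Qb) : Affine Qb)
        (φ.symm (x : (P.freyCurve⁄Qb).Point)) := by
    intro x hx
    rw [← hφk, AddEquiv.apply_symm_apply]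
    exact hx
  refine ⟨⟨φ T₀, htors T₀ hT₀p⟩, ?_, ?_, ?_, ?_⟩
  · intro h0
    apply hT₀0
    have h1 : φ T₀ = 0 := congrArg Subtype.val h0
    exact (AddEquiv.map_eq_zero_iff φ).mp h1
  · exact (hφk T₀).mpr hT₀k
  · intro x hx
    obtain ⟨k, hk⟩ := hgen _ (hback x) (hbackk x hx)
    refine ⟨k, Subtype.ext ?_⟩
    have h1 : (x : (P.freyCurve⁄Qb).Point) = φ (k • T₀) := by
      rw [← hk, AddEquiv.apply_symm_apply]
    rw [h1, map_nsmul]
    rfl
  · intro σ hσ ζ e hζ1 hζp hσζ x hx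
    have hσ' := isInertiaLike_of_mem_inertiaSubgroupIn 𝔸 σ hσ
    have h1 := hEps σ hσ' ζ e hζ1 hζp hσζ _ (hback x) (hbackk x hx)
    apply Subtype.ext
    have h2 : φ (σ • φ.symm (x : (P.freyCurve⁄Qb).Point)) =
        φ (e • φ.symm (x : (P.freyCurve⁄Qb).Point)) := by rw [h1]
    rw [hφσ, map_nsmul, AddEquiv.apply_symm_apply] at h2
    exact h2

/-- (i) **THE SHAPE** of the inertia group at `p ∣ abc` on `E[p]` of the Frey curve. -/
theorem mrex_shape (hshape : MresShapeSpec) (P : FreyPackage)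
    (hp : (P.p : ℤ) ∣ P.a * P.b * P.c) (𝔸 : ValuationSubring Qb) (h𝔸 : 𝔸.LiesOverPrime P.p) :
    MraShape P.p 𝔸 (⊤ : AddSubgroup (MraEp P)) := by
  have hq : P.p.Prime := P.pp
  have hq2 : P.p ≠ 2 := by have := P.hp5; omega
  haveI : Fact P.p.Prime := ⟨hq⟩
  obtain ⟨t₀, ht₀0, ht₀V, hgen, hEps⟩ := mrex_core hshape P hp 𝔸 h𝔸
  refine ⟨?_, mrexLine P 𝔸, le_top, ?_, ?_, ?_⟩
  · rw [Nat.card_congr (AddSubgroup.topEquiv (G := MraEp P)).toEquiv]
    exact Fermat.Agent.S41.s41net_card_torsionBy (freyCurve_baseChange_Δ_ne_zero P) hq hq2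
  · have hV : mrexLine P 𝔸 = AddSubgroup.zmultiples t₀ := by
      ext x
      constructor
      · intro hx
        obtain ⟨k, rfl⟩ := hgen x hx
        exact AddSubgroup.nsmul_mem _ (AddSubgroup.mem_zmultiples t₀) k
      · intro hx
        rw [AddSubgroup.mem_zmultiples_iff] at hx
        obtain ⟨k, rfl⟩ := hx
        exact AddSubgroup.zsmul_mem _ ht₀V k
    rw [hV, Nat.card_zmultiples]
    refine addOrderOf_eq_prime ?_ ht₀0
    exact Subtype.ext (mrex_nsmul_coe P t₀)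
  · intro σ hσ x _
    rw [mem_mrexLine]
    exact frey_inKerRed_map_sub P 𝔸 h𝔸 σ hσ (x : (P.freyCurve⁄Qb).Point) (mrex_nsmul_coe P x)
  · intro σ hσ a ha x hx
    obtain ⟨ζ, hζ⟩ := mrex_exists_zeta hq
    exact hEps σ hσ ζ a (hζ.ne_one hq.one_lt) hζ.pow_eq_one (ha ζ hζ.pow_eq_one) x hx

/-- (ii) **THE TWO STABILISERS AGREE** : an element of `I` fixing `E[p]` pointwise fixes `ζ`. -/
theorem mrex_H_eq (hshape : MresShapeSpec) (P : FreyPackage)
    (hp : (P.p : ℤ) ∣ P.a * P.b * P.c) (𝔸 : ValuationSubring Qb) (h𝔸 : 𝔸.LiesOverPrime P.p)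
    {ζ : Qb} (hζ : IsPrimitiveRoot ζ P.p) :
    mraH 𝔸 (⊤ : AddSubgroup (MraEp P)) = mreStab 𝔸 ζ (mreTors P) := by
  have hq : P.p.Prime := P.pp
  haveI : Fact P.p.Prime := ⟨hq⟩
  haveI : NeZero P.p := ⟨hq.ne_zero⟩
  ext σ
  rw [mem_mreStab]
  unfold mraH
  rw [Subgroup.mem_inf]
  constructor
  · rintro ⟨hst, hσ⟩
    refine ⟨hσ, ?_, fun x => hst x (AddSubgroup.mem_top x)⟩
    obtain ⟨t₀, ht₀0, ht₀V, hgen, hEps⟩ := mrex_core hshape P hp 𝔸 h𝔸
    have h1 : (σ ζ) ^ P.p = 1 := by rw [← map_pow, hζ.pow_eq_one, map_one]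
    obtain ⟨e, he, hσζ⟩ := hζ.eq_pow_of_pow_eq_one h1
    have h2 := hEps σ hσ ζ e (hζ.ne_one hq.one_lt) hζ.pow_eq_one hσζ.symm t₀ ht₀V
    rw [hst t₀ (AddSubgroup.mem_top _)] at h2
    have hord : addOrderOf t₀ = P.p :=
      addOrderOf_eq_prime (Subtype.ext (mrex_nsmul_coe P t₀)) ht₀0
    have h3 : 1 • t₀ = e • t₀ := by rw [one_smul]; exact h2
    have h4 : 1 ≡ e [MOD P.p] := by
      rw [← hord]
      exact nsmul_eq_nsmul_iff_modEq.mp h3
    have hfin : IsOfFinOrder ζ := isOfFinOrder_iff_pow_eq_one.mpr ⟨P.p, hq.pos, hζ.pow_eq_one⟩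
    have h5 : ζ ^ 1 = ζ ^ e := by
      rw [hfin.pow_eq_pow_iff_modEq, ← hζ.eq_orderOf]
      exact h4
    rw [← hσζ, ← h5, pow_one]
  · rintro ⟨hσ, -, hst⟩
    exact ⟨fun x _ => hst x, hσ⟩

/-- **THE ADAPTER** : `MraESpec` from the outputs of the leaves (e1) (helper27) and of the block `mre`
(helper10). -/
theorem mrex_ESpec (hshape : MresShapeSpec) (hP1 : ∀ P : FreyPackage, MreP1Spec P) : MraESpec := by
  intro P hp 𝔸 h𝔸
  have hq : P.p.Prime := P.pp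
  refine ⟨mrex_shape hshape P hp 𝔸 h𝔸, ?_⟩
  intro σ hσ hσH
  obtain ⟨ζ, hζ⟩ := mrex_exists_zeta hq
  obtain ⟨hσI, hσ0⟩ := hσ
  have hmove : ∃ x : mreTors P, σ • x ≠ x := by
    by_contra hcon
    refine hσH ⟨fun x _ => ?_, hσI⟩
    by_contra hx
    exact hcon ⟨x, hx⟩
  obtain ⟨π, c, h⟩ := hP1 P 𝔸 h𝔸 hp ζ hζ.pow_eq_one (hζ.ne_one hq.one_lt) σ hσI
    (hσ0 ζ hζ.pow_eq_one) hmove
  refine ⟨π, c, ?_⟩
  rw [mrex_H_eq hshape P hp 𝔸 h𝔸 hζ]
  exact mrex_P1At h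

end Fermat.Agent.MR
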